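import Mathlib.LinearAlgebra.Dimension.Finrank
import Mathlib.Analysis.Complex.Basic
import Mathlib.GroupTheory.Perm.Basic
import Mathlib.Algebra.BigOperators.Group.Finset.Basic

/-!
# TEAM ES (S21): shared definitions

`parCocycles s u t m`: parabolic cocycle data for a triple of permutations.
-/

set_option autoImplicit false

namespace Fermat.Agent.ES

/-- The space of "parabolic cocycle data" `(a, b) = (c(s), c(u))` for a triple of permutations
`s, u = s * t, t` of `X` (`m` is a period of `t`):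
`a ∘ s + a = 0`, `b ∘ u² + b ∘ u + b = 0`, and `c(t) := b - a ∘ t` sums to zero along `t`. -/
def parCocycles {X : Type*} (s u t : Equiv.Perm X) (m : ℕ) : Submodule ℂ ((X → ℂ) × (X → ℂ)) where
  carrier := {p | (∀ x, p.1 (s x) + p.1 x = 0) ∧ (∀ x, p.2 (u (u x)) + p.2 (u x) + p.2 x = 0) ∧
    ∀ x, ∑ i ∈ Finset.range m, (p.2 ((t ^ i) x) - p.1 (t ((t ^ i) x))) = 0}
  zero_mem' := by simp
  add_mem' := by
    rintro p q ⟨hp1, hp2, hp3⟩ ⟨hq1, hq2, hq3⟩
    refine ⟨fun x => ?_, fun x => ?_, fun x => ?_⟩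
    · have := hp1 x; have := hq1 x
      simp only [Prod.fst_add, Pi.add_apply]; linear_combination hp1 x + hq1 x
    · simp only [Prod.snd_add, Pi.add_apply]; linear_combination hp2 x + hq2 x
    · have h := congrArg₂ (· + ·) (hp3 x) (hq3 x)
      simp only [add_zero, ← Finset.sum_add_distrib] at h
      rw [← h]
      refine Finset.sum_congr rfl fun i _ => ?_
      simp only [Prod.fst_add, Prod.snd_add, Pi.add_apply]; ring
  smul_mem' := by
    rintro c p ⟨hp1, hp2, hp3⟩
    refine ⟨fun x => ?_, fun x => ?_, fun x => ?_⟩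
    · simp only [Prod.smul_fst, Pi.smul_apply, smul_eq_mul]; linear_combination c * hp1 x
    · simp only [Prod.smul_snd, Pi.smul_apply, smul_eq_mul]; linear_combination c * hp2 x
    · have h := congrArg (c * ·) (hp3 x)
      simp only [mul_zero, Finset.mul_sum] at h
      rw [← h]
      refine Finset.sum_congr rfl fun i _ => ?_
      simp only [Prod.smul_fst, Prod.smul_snd, Pi.smul_apply, smul_eq_mul]; ring

theorem mem_parCocycles {X : Type*} (s u t : Equiv.Perm X) (m : ℕ) (p : (X → ℂ) × (X → ℂ)) :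
    p ∈ parCocycles s u t m ↔ (∀ x, p.1 (s x) + p.1 x = 0) ∧
      (∀ x, p.2 (u (u x)) + p.2 (u x) + p.2 x = 0) ∧
      ∀ x, ∑ i ∈ Finset.range m, (p.2 ((t ^ i) x) - p.1 (t ((t ^ i) x))) = 0 :=
  Iff.rfl

end Fermat.Agent.ES
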