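import Mathlib
import Fermat.Prelude.Def_ModularCurve_PeriodMap
import Fermat.Agent.S24.OrbDefs
import Fermat.Agent.ES.Defs

/-!
# ES/E3b: parabolic homomorphisms of `Γ₀(N)` inject into parabolic cocycle data (Shapiro)
-/

set_option autoImplicit false

namespace Fermat.Agent.ES

open ModularCurve.Period CongruenceSubgroup Module
open Fermat.Agent.S24 (X0 cosetPerm)
open scoped MatrixGroups

namespace Cocycle

variable (N : ℕ)

theorem out_inv_mul_mem (g : SL(2, ℤ)) (x : X0 N) :
    (g • x).out⁻¹ * g * x.out ∈ Gamma0 N := by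
  have h : ((g • x).out : X0 N) = ((g * x.out : SL(2, ℤ)) : X0 N) := by
    rw [QuotientGroup.out_eq']
    conv_lhs => rw [← QuotientGroup.out_eq' x]
    rfl
  have h2 := QuotientGroup.eq.mp h
  rwa [← mul_assoc] at h2

/-- The Shapiro transfer element `k(g, x) = (g • x).out⁻¹ * g * x.out ∈ Γ₀(N)`. -/
noncomputable def kfun (g : SL(2, ℤ)) (x : X0 N) : Gamma0 N :=
  ⟨(g • x).out⁻¹ * g * x.out, out_inv_mul_mem N g x⟩

theorem coe_kfun (g : SL(2, ℤ)) (x : X0 N) :
    ((kfun N g x : Gamma0 N) : SL(2, ℤ)) = (g • x).out⁻¹ * g * x.out := rfl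

theorem kfun_mul (g h : SL(2, ℤ)) (x : X0 N) :
    kfun N (g * h) x = kfun N g (h • x) * kfun N h x := by
  apply Subtype.ext
  simp only [coe_kfun, Subgroup.coe_mul, mul_smul]
  group

/-- The Shapiro cocycle of `φ` twisted by the coboundary of `v`. -/
noncomputable def coc (φ : Additive (Gamma0 N) →+ ℂ) (v : X0 N → ℂ) (g : SL(2, ℤ)) (x : X0 N) : ℂ :=
  φ (Additive.ofMul (kfun N g x)) + v (g • x) - v x

theorem coc_mul (φ : Additive (Gamma0 N) →+ ℂ) (v : X0 N → ℂ) (g h : SL(2, ℤ)) (x : X0 N) :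
    coc N φ v (g * h) x = coc N φ v g (h • x) + coc N φ v h x := by
  simp only [coc, kfun_mul, ofMul_mul, map_add, mul_smul]
  ring

theorem coc_one (φ : Additive (Gamma0 N) →+ ℂ) (v : X0 N → ℂ) (x : X0 N) :
    coc N φ v 1 x = 0 := by
  have h := coc_mul N φ v 1 1 x
  simp only [mul_one, one_smul] at h
  linear_combination -h

theorem coc_inv (φ : Additive (Gamma0 N) →+ ℂ) (v : X0 N → ℂ) (g : SL(2, ℤ)) (x : X0 N) :
    coc N φ v g⁻¹ x = - coc N φ v g (g⁻¹ • x) := by
  have h := coc_mul N φ v g g⁻¹ x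
  rw [mul_inv_cancel, coc_one] at h
  linear_combination -h

theorem coc_pow (φ : Additive (Gamma0 N) →+ ℂ) (v : X0 N → ℂ) (g : SL(2, ℤ)) (m : ℕ) (x : X0 N) :
    coc N φ v (g ^ m) x = ∑ i ∈ Finset.range m, coc N φ v g ((g ^ i) • x) := by
  induction m with
  | zero => simp [coc_one]
  | succ m ih =>
    rw [pow_succ', coc_mul, ih, Finset.sum_range_succ]
    ring

/-- A cocycle vanishing on `S` and `T` vanishes identically. -/
theorem coc_eq_zero_of_generators (φ : Additive (Gamma0 N) →+ ℂ) (v : X0 N → ℂ)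
    (hS : ∀ x, coc N φ v ModularGroup.S x = 0) (hT : ∀ x, coc N φ v ModularGroup.T x = 0)
    (g : SL(2, ℤ)) (x : X0 N) : coc N φ v g x = 0 := by
  have hg : g ∈ Subgroup.closure ({ModularGroup.S, ModularGroup.T} : Set SL(2, ℤ)) := by
    rw [_root_.SpecialLinearGroup.SL2Z_generators]; trivial
  revert x
  induction hg using Subgroup.closure_induction with
  | mem y hy =>
    rcases hy with rfl | rfl
    · exact hS
    · exact hT
  | one => exact fun x => coc_one N φ v x
  | mul a b _ _ ha hb =>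
    intro x
    rw [coc_mul, ha, hb, add_zero]
  | inv a _ ha =>
    intro x
    rw [coc_inv, ha, neg_zero]

/-- If `g` acts trivially on the cosets and `trace g ^ 2 = 4`, the cocycle of a parabolic `φ`
vanishes at `g`. -/
theorem coc_eq_zero_of_trivial {φ : Additive (Gamma0 N) →+ ℂ}
    (hφ : IsParabolicHom (Gamma0 N) φ) (v : X0 N → ℂ) (g : SL(2, ℤ))
    (hg : ∀ x : X0 N, g • x = x)
    (htr : (g : Matrix (Fin 2) (Fin 2) ℤ).trace ^ 2 = 4) (x : X0 N) : coc N φ v g x = 0 := by
  have h1 : ((kfun N g x : Gamma0 N) : SL(2, ℤ)) = x.out⁻¹ * g * x.out := by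
    rw [coe_kfun, hg x]
  have h2 : (((kfun N g x : Gamma0 N) : SL(2, ℤ)) : Matrix (Fin 2) (Fin 2) ℤ).trace =
      (g : Matrix (Fin 2) (Fin 2) ℤ).trace := by
    rw [h1, Matrix.SpecialLinearGroup.coe_mul, Matrix.SpecialLinearGroup.coe_mul,
      Matrix.trace_mul_comm, ← mul_assoc, ← Matrix.SpecialLinearGroup.coe_mul, mul_inv_cancel,
      Matrix.SpecialLinearGroup.coe_one, one_mul]
  have h3 := hφ (kfun N g x) (by rw [h2]; exact htr)
  simp [coc, h3, hg x]

theorem smul_eq_self_of_conj_mem (g : SL(2, ℤ))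
    (hg : ∀ h : SL(2, ℤ), h⁻¹ * g * h ∈ Gamma0 N) (x : X0 N) : g • x = x := by
  induction x using QuotientGroup.induction_on with
  | H h =>
    show ((g * h : SL(2, ℤ)) : X0 N) = (h : X0 N)
    rw [eq_comm, QuotientGroup.eq]
    simpa [mul_assoc] using hg h

theorem coe_S_mul_S :
    ((ModularGroup.S * ModularGroup.S : SL(2, ℤ)) : Matrix (Fin 2) (Fin 2) ℤ) = -1 := by
  rw [Matrix.SpecialLinearGroup.coe_mul]; exact ModularGroup.S_mul_S_eq

theorem ST_cube : ModularGroup.S * ModularGroup.T * (ModularGroup.S * ModularGroup.T) *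
    (ModularGroup.S * ModularGroup.T) = ModularGroup.S * ModularGroup.S := by
  decide

theorem conj_S_mul_S (h : SL(2, ℤ)) :
    h⁻¹ * (ModularGroup.S * ModularGroup.S) * h = ModularGroup.S * ModularGroup.S := by
  apply Subtype.ext
  rw [Matrix.SpecialLinearGroup.coe_mul, Matrix.SpecialLinearGroup.coe_mul, coe_S_mul_S,
    mul_neg, mul_one, neg_mul, ← Matrix.SpecialLinearGroup.coe_mul, inv_mul_cancel,
    Matrix.SpecialLinearGroup.coe_one]

theorem S_mul_S_mem : ModularGroup.S * ModularGroup.S ∈ Gamma0 N := by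
  rw [Gamma0_mem, coe_S_mul_S]
  simp

theorem S_mul_S_smul (x : X0 N) : (ModularGroup.S * ModularGroup.S) • x = x :=
  smul_eq_self_of_conj_mem N _ (fun h => by rw [conj_S_mul_S]; exact S_mul_S_mem N) x

theorem trace_S_mul_S :
    ((ModularGroup.S * ModularGroup.S : SL(2, ℤ)) : Matrix (Fin 2) (Fin 2) ℤ).trace ^ 2 = 4 := by
  rw [coe_S_mul_S]
  simp

theorem coe_T_pow (m : ℕ) :
    ((ModularGroup.T ^ m : SL(2, ℤ)) : Matrix (Fin 2) (Fin 2) ℤ) = !![1, (m : ℤ); 0, 1] := by
  have h := ModularGroup.coe_T_zpow (m : ℤ)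
  rwa [zpow_natCast] at h

theorem conj_T_pow_mem (h : SL(2, ℤ)) : h⁻¹ * ModularGroup.T ^ N * h ∈ Gamma0 N := by
  rw [Gamma0_mem]
  have e : ((h⁻¹ * ModularGroup.T ^ N * h : SL(2, ℤ)) : Matrix (Fin 2) (Fin 2) ℤ) 1 0
      = -(N : ℤ) * (h 1 0) ^ 2 := by
    rw [Matrix.SpecialLinearGroup.coe_mul, Matrix.SpecialLinearGroup.coe_mul, coe_T_pow,
      Matrix.SpecialLinearGroup.coe_inv, Matrix.adjugate_fin_two]
    simp [Matrix.mul_apply, Fin.sum_univ_two]
    ring
  rw [e]
  push_cast
  simp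

theorem T_pow_smul (x : X0 N) : (ModularGroup.T ^ N) • x = x :=
  smul_eq_self_of_conj_mem N _ (conj_T_pow_mem N) x

theorem trace_T_pow :
    ((ModularGroup.T ^ N : SL(2, ℤ)) : Matrix (Fin 2) (Fin 2) ℤ).trace ^ 2 = 4 := by
  rw [coe_T_pow]
  simp [Matrix.trace_fin_two]

theorem cosetPerm_pow_apply (g : SL(2, ℤ)) (i : ℕ) (x : X0 N) :
    (cosetPerm N g ^ i) x = (g ^ i) • x := by
  induction i generalizing x with
  | zero => simp
  | succ i ih =>
    rw [pow_succ, Equiv.Perm.mul_apply, ih, pow_succ, mul_smul]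
    rfl

/-- The cocycle data `(c(S), c(ST))` of a parabolic homomorphism (twisted by any coboundary)
is parabolic cocycle data. -/
theorem mem_parCocycles_of_parabolic {φ : Additive (Gamma0 N) →+ ℂ}
    (hφ : IsParabolicHom (Gamma0 N) φ) (v : X0 N → ℂ) :
    (coc N φ v ModularGroup.S, coc N φ v (ModularGroup.S * ModularGroup.T)) ∈
      parCocycles (cosetPerm N ModularGroup.S) (cosetPerm N (ModularGroup.S * ModularGroup.T))
        (cosetPerm N ModularGroup.T) N := by
  rw [mem_parCocycles]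
  refine ⟨fun x => ?_, fun x => ?_, fun x => ?_⟩
  · have h := coc_mul N φ v ModularGroup.S ModularGroup.S x
    rw [coc_eq_zero_of_trivial N hφ v _ (S_mul_S_smul N) trace_S_mul_S] at h
    simp only [Fermat.Agent.S24.cosetPerm_apply]
    linear_combination -h
  · have h1 := coc_mul N φ v
      (ModularGroup.S * ModularGroup.T * (ModularGroup.S * ModularGroup.T))
      (ModularGroup.S * ModularGroup.T) x
    have h2 := coc_mul N φ v (ModularGroup.S * ModularGroup.T)
      (ModularGroup.S * ModularGroup.T) ((ModularGroup.S * ModularGroup.T) • x)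
    rw [ST_cube, coc_eq_zero_of_trivial N hφ v _ (S_mul_S_smul N) trace_S_mul_S] at h1
    simp only [Fermat.Agent.S24.cosetPerm_apply]
    linear_combination -h1 - h2
  · have h := coc_pow N φ v ModularGroup.T N x
    rw [coc_eq_zero_of_trivial N hφ v _ (T_pow_smul N) (trace_T_pow N)] at h
    refine Eq.trans (Finset.sum_congr rfl fun i _ => ?_) h.symm
    have h3 := coc_mul N φ v ModularGroup.S ModularGroup.T ((ModularGroup.T ^ i) • x)
    simp only [cosetPerm_pow_apply, Fermat.Agent.S24.cosetPerm_apply]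
    linear_combination h3

/-- Functions on the cosets vanishing at the base coset. -/
noncomputable def V0 : Submodule ℂ (X0 N → ℂ) :=
  LinearMap.ker (LinearMap.proj (R := ℂ) (φ := fun _ : X0 N => ℂ) (QuotientGroup.mk 1))

theorem mem_V0 (v : X0 N → ℂ) : v ∈ V0 N ↔ v (QuotientGroup.mk 1) = 0 := by
  simp [V0]

/-- The Shapiro map `(φ, v) ↦ (c_φ(S) + v∘s - v, c_φ(ST) + v∘u - v)`. -/
noncomputable def Psi :
    (↥(parabolicHoms ℂ (Gamma0 N) ℂ) × ↥(V0 N)) →ₗ[ℂ] ((X0 N → ℂ) × (X0 N → ℂ)) where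
  toFun p := (coc N p.1.1 p.2.1 ModularGroup.S,
    coc N p.1.1 p.2.1 (ModularGroup.S * ModularGroup.T))
  map_add' p q := by
    ext x <;> simp [coc] <;> ring
  map_smul' c p := by
    ext x <;> simp [coc] <;> ring

theorem Psi_apply (p : ↥(parabolicHoms ℂ (Gamma0 N) ℂ) × ↥(V0 N)) :
    Psi N p = (coc N p.1.1 p.2.1 ModularGroup.S,
      coc N p.1.1 p.2.1 (ModularGroup.S * ModularGroup.T)) := rfl

theorem Psi_injective : Function.Injective (Psi N) := by
  rw [← LinearMap.ker_eq_bot, LinearMap.ker_eq_bot']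
  rintro ⟨⟨φ, hφ⟩, ⟨v, hv⟩⟩ h
  rw [Psi_apply, Prod.mk_eq_zero] at h
  obtain ⟨hS, hU⟩ := h
  have hS' : ∀ x, coc N φ v ModularGroup.S x = 0 := fun x => congrFun hS x
  have hU' : ∀ x, coc N φ v (ModularGroup.S * ModularGroup.T) x = 0 := fun x => congrFun hU x
  have hT' : ∀ x, coc N φ v ModularGroup.T x = 0 := by
    intro x
    have h := coc_mul N φ v ModularGroup.S ModularGroup.T x
    rw [hU', hS', zero_add] at h
    exact h.symm
  have hall := coc_eq_zero_of_generators N φ v hS' hT'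
  have hv0 : v (QuotientGroup.mk 1) = 0 := (mem_V0 N v).mp hv
  have hφ0 : ∀ γ : Gamma0 N, φ (Additive.ofMul γ) = 0 := by
    intro γ
    have h := hall (γ : SL(2, ℤ)) (QuotientGroup.mk 1)
    have hfix : (γ : SL(2, ℤ)) • (QuotientGroup.mk 1 : X0 N) = QuotientGroup.mk 1 := by
      show ((γ * 1 : SL(2, ℤ)) : X0 N) = _
      rw [QuotientGroup.eq]
      simp
    have he : (QuotientGroup.mk 1 : X0 N).out ∈ Gamma0 N := by
      have h1 := QuotientGroup.out_eq' (QuotientGroup.mk 1 : X0 N)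
      have h2 := QuotientGroup.eq.mp h1
      simpa using (Gamma0 N).inv_mem h2
    have hk : kfun N γ (QuotientGroup.mk 1) =
        (⟨_, he⟩ : Gamma0 N)⁻¹ * γ * (⟨_, he⟩ : Gamma0 N) := by
      apply Subtype.ext
      rw [coe_kfun, hfix]
      rfl
    simp only [coc, hk, hfix, ofMul_mul, ofMul_inv, map_add, map_neg] at h
    linear_combination h
  have hv' : ∀ x, v x = 0 := by
    intro x
    induction x using QuotientGroup.induction_on with
    | H g =>
      have h := hall g (QuotientGroup.mk 1)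
      have hg : g • (QuotientGroup.mk 1 : X0 N) = QuotientGroup.mk g := by
        show ((g * 1 : SL(2, ℤ)) : X0 N) = _
        rw [mul_one]
      simp only [coc, hφ0, hg, hv0] at h
      simpa using h
  refine Prod.ext (Subtype.ext ?_) (Subtype.ext ?_)
  · exact AddMonoidHom.ext fun a => hφ0 (Additive.toMul a)
  · exact funext hv'

end Cocycle

open Cocycle in
/-- **ES/E3b.** Parabolic homomorphisms of `Γ₀(N)` inject, together with the coboundaries,
into the parabolic cocycle data on the cosets. -/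
theorem finrank_parabolicHoms_add_le (N : ℕ) [NeZero N] :
    Module.Finite ℂ (parabolicHoms ℂ (Gamma0 N) ℂ) ∧
    finrank ℂ (parabolicHoms ℂ (Gamma0 N) ℂ) + Nat.card (X0 N) ≤
      finrank ℂ (parCocycles (cosetPerm N ModularGroup.S)
        (cosetPerm N (ModularGroup.S * ModularGroup.T)) (cosetPerm N ModularGroup.T) N) + 1 := by
  have : Finite (X0 N) := Subgroup.finite_quotient_of_finiteIndex
  have : Fintype (X0 N) := Fintype.ofFinite _
  let Φ := LinearMap.codRestrict
    (parCocycles (cosetPerm N ModularGroup.S) (cosetPerm N (ModularGroup.S * ModularGroup.T))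
      (cosetPerm N ModularGroup.T) N) (Psi N)
    (fun p => mem_parCocycles_of_parabolic N p.1.2 p.2.1)
  have hinj : Function.Injective Φ := by
    intro p q hpq
    apply Psi_injective N
    exact congrArg Subtype.val hpq
  have hPV : Module.Finite ℂ (↥(parabolicHoms ℂ (Gamma0 N) ℂ) × ↥(V0 N)) :=
    Module.Finite.of_injective Φ hinj
  have hP : Module.Finite ℂ (parabolicHoms ℂ (Gamma0 N) ℂ) :=
    Module.Finite.of_injective
      (LinearMap.inl ℂ (parabolicHoms ℂ (Gamma0 N) ℂ) (V0 N)) LinearMap.inl_injective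
  refine ⟨hP, ?_⟩
  have h1 := LinearMap.finrank_le_finrank_of_injective hinj
  rw [Module.finrank_prod] at h1
  have h2 : finrank ℂ (V0 N) + 1 = Nat.card (X0 N) := by
    have h3 := LinearMap.finrank_range_add_finrank_ker
      (LinearMap.proj (R := ℂ) (φ := fun _ : X0 N => ℂ) (QuotientGroup.mk 1))
    rw [LinearMap.range_eq_top.mpr (LinearMap.proj_surjective _), finrank_top,
      Module.finrank_self, Module.finrank_fintype_fun_eq_card] at h3
    rw [Nat.card_eq_fintype_card, ← h3, add_comm]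
    rfl
  omega

end Fermat.Agent.ES
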