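import Mathlib
import Fermat.Prelude.Def_ModularCurve_PeriodMap
import Fermat.Agent.S24.OrbDefs

/-!
# ES / E3: the dimension of the space of parabolic homomorphisms of `Γ₀(N)`

Pure algebra.  For a subgroup `Γ` of finite index in a group `G` generated by `S` and `T`,
we bound the dimension of a space `P` of homomorphisms `Γ → k` that vanish on the conjugates
of `S²`, `(ST)³` and of the powers of `T` lying in `Γ`:

`dim P + o(S) + o(ST) + o(T) ≤ [G : Γ] + 2`,

where `o(g)` is the number of orbits of `g` on `G ⧸ Γ`.  For `G = SL(2, ℤ)`, `Γ = Γ₀(N)` this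
says that the space of parabolic homomorphisms has dimension at most `2 g(X₀(N))`.
-/

set_option autoImplicit false

namespace Fermat.Agent.ES

open Fermat.Agent.S24

namespace ParabolicDim

section PermRep

variable (k : Type*) [Field k] {G : Type*} [Group G] {X : Type*} [MulAction G X]

/-- The action on functions: `actL g v = v ∘ (g • ·)`. -/
noncomputable def actL (g : G) : (X → k) →ₗ[k] (X → k) :=
  LinearMap.funLeft k k (fun x => g • x)

@[simp] theorem actL_apply (g : G) (v : X → k) (x : X) : actL k g v x = v (g • x) := rfl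

theorem actL_one_apply (v : X → k) : actL k (1 : G) v = v := by
  funext x; simp

theorem actL_mul_apply (g h : G) (v : X → k) : actL k (g * h) v = actL k h (actL k g v) := by
  funext x; simp [mul_smul]

/-- The subgroup of elements fixing a function. -/
def fixSub (v : X → k) : Subgroup G where
  carrier := {g | ∀ x, v (g • x) = v x}
  one_mem' := fun x => by rw [one_smul]
  mul_mem' := fun {a b} ha hb x => by rw [mul_smul, ha, hb]
  inv_mem' := fun {a} ha x => by
    have := ha (a⁻¹ • x)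
    rw [smul_inv_smul] at this
    exact this.symm

omit [Field k] in
theorem mem_fixSub {v : X → k} {g : G} : g ∈ fixSub k v ↔ ∀ x, v (g • x) = v x := Iff.rfl

/-- The invariants of `g` have dimension the number of orbits. -/
theorem finrank_ker_actL_sub_one [Finite X] (g : G) :
    Module.finrank k (LinearMap.ker (actL k g - 1 : (X → k) →ₗ[k] (X → k)))
      = orbCount (MulAction.toPerm g : Equiv.Perm X) := by
  classical
  set π : Equiv.Perm X := MulAction.toPerm g with hπ
  let _ : Fintype (MulAction.orbitRel.Quotient (Subgroup.zpowers π) X) := Fintype.ofFinite _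
  let L : (MulAction.orbitRel.Quotient (Subgroup.zpowers π) X → k) →ₗ[k] (X → k) :=
    LinearMap.funLeft k k (Quotient.mk (MulAction.orbitRel (Subgroup.zpowers π) X))
  have hLinj : Function.Injective L :=
    LinearMap.funLeft_injective_of_surjective k k _ Quotient.mk_surjective
  have hrange : LinearMap.range L = LinearMap.ker (actL k g - 1) := by
    ext v
    simp only [LinearMap.mem_range, LinearMap.mem_ker, LinearMap.sub_apply, sub_eq_zero,
      Module.End.one_apply]
    constructor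
    · rintro ⟨f, rfl⟩
      funext x
      show f (Quotient.mk _ (g • x)) = f (Quotient.mk _ x)
      congr 1
      apply Quotient.sound
      exact ⟨⟨π, Subgroup.mem_zpowers π⟩, rfl⟩
    · intro hv
      have hv' : ∀ x, v (π • x) = v x := fun x => congrFun hv x
      have hle : Subgroup.zpowers π ≤ fixSub k v := (Subgroup.zpowers_le).mpr hv'
      refine ⟨Quotient.lift v (fun x y hxy => ?_), ?_⟩
      · obtain ⟨⟨h, hh⟩, rfl⟩ := hxy
        exact hle hh y
      · funext x; rfl
  rw [← hrange, LinearMap.finrank_range_of_inj hLinj, Module.finrank_fintype_fun_eq_card,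
    orbCount, Nat.card_eq_fintype_card]

theorem finrank_range_actL_sub_one [Finite X] (g : G) :
    Module.finrank k (LinearMap.range (actL k g - 1 : (X → k) →ₗ[k] (X → k)))
      + orbCount (MulAction.toPerm g : Equiv.Perm X) = Nat.card X := by
  classical
  let _ := Fintype.ofFinite X
  rw [← finrank_ker_actL_sub_one k g, LinearMap.finrank_range_add_finrank_ker,
    Module.finrank_fintype_fun_eq_card, Nat.card_eq_fintype_card]

/-- The norm operator `∑ i < m, g ^ i`. -/
noncomputable def nrm (g : G) (m : ℕ) : (X → k) →ₗ[k] (X → k) :=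
  ∑ i ∈ Finset.range m, actL k (g ^ i)

theorem nrm_apply (g : G) (m : ℕ) (v : X → k) :
    nrm k g m v = ∑ i ∈ Finset.range m, actL k (g ^ i) v := by
  simp [nrm, LinearMap.sum_apply]

theorem nrm_actL (g : G) (m : ℕ) (hm : ∀ x : X, g ^ m • x = x) (v : X → k) :
    nrm k g m (actL k g v) = nrm k g m v := by
  rw [nrm_apply, nrm_apply]
  have h1 : ∀ i, actL k (g ^ i) (actL k g v) = actL k (g ^ (i + 1)) v := by
    intro i
    rw [pow_succ', actL_mul_apply]
  simp_rw [h1]
  have h2 := Finset.sum_range_succ' (fun i => actL k (g ^ i) v) m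
  have h3 := Finset.sum_range_succ (fun i => actL k (g ^ i) v) m
  have h4 : actL k (g ^ m) v = actL k (g ^ 0) v := by
    funext x; simp [hm x]
  rw [h3, h4] at h2
  exact add_right_cancel h2.symm

theorem nrm_of_fixed (g : G) (m : ℕ) (v : X → k) (hv : actL k g v = v) :
    nrm k g m v = (m : k) • v := by
  rw [nrm_apply]
  have h1 : ∀ i, actL k (g ^ i) v = v := by
    intro i
    induction i with
    | zero => rw [pow_zero, actL_one_apply]
    | succ i ih => rw [pow_succ', actL_mul_apply, hv, ih]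
  simp_rw [h1]
  rw [Finset.sum_const, Finset.card_range, Nat.cast_smul_eq_nsmul]

theorem finrank_ker_nrm_le [Finite X] (g : G) (m : ℕ) (hmk : (m : k) ≠ 0) :
    Module.finrank k (LinearMap.ker (nrm k g m : (X → k) →ₗ[k] (X → k)))
      + orbCount (MulAction.toPerm g : Equiv.Perm X) ≤ Nat.card X := by
  classical
  let _ := Fintype.ofFinite X
  have hle : LinearMap.ker (actL k g - 1 : (X → k) →ₗ[k] (X → k)) ≤ LinearMap.range (nrm k g m) := by
    intro v hv
    have hv' : actL k g v = v := by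
      have := LinearMap.mem_ker.mp hv
      simpa [sub_eq_zero] using this
    refine ⟨(m : k)⁻¹ • v, ?_⟩
    rw [map_smul, nrm_of_fixed k g m v hv', smul_smul, inv_mul_cancel₀ hmk, one_smul]
  have h1 := Submodule.finrank_mono hle
  rw [finrank_ker_actL_sub_one] at h1
  have h2 := LinearMap.finrank_range_add_finrank_ker (nrm k g m : (X → k) →ₗ[k] (X → k))
  rw [Module.finrank_fintype_fun_eq_card, ← Nat.card_eq_fintype_card] at h2
  omega

theorem actL_single [DecidableEq X] (g : G) (x : X) :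
    actL k g (Pi.single (g • x) (1 : k)) = Pi.single x 1 := by
  funext y
  simp only [actL_apply, Pi.single_apply, smul_left_cancel_iff]

/-- If `S`, `U` generate a group acting transitively, then the augmentation-type subspace
`range (S - 1) + range (U - 1)` has codimension at most one. -/
theorem card_le_finrank_sup [Finite X] [MulAction.IsPretransitive G X] (S U : G)
    (hgen : Subgroup.closure {S, U} = ⊤) :
    Nat.card X ≤ Module.finrank k
      ↥(LinearMap.range (actL k S - 1 : (X → k) →ₗ[k] (X → k)) ⊔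
        LinearMap.range (actL k U - 1 : (X → k) →ₗ[k] (X → k))) + 1 := by
  classical
  let _ := Fintype.ofFinite X
  set W := LinearMap.range (actL k S - 1 : (X → k) →ₗ[k] (X → k)) ⊔
    LinearMap.range (actL k U - 1 : (X → k) →ₗ[k] (X → k)) with hW
  rcases isEmpty_or_nonempty X with hX | ⟨⟨x₀⟩⟩
  · simp
  let H : Subgroup G :=
    { carrier := {g | ∀ x : X, (Pi.single (g • x) 1 - Pi.single x 1 : X → k) ∈ W}
      one_mem' := fun x => by simp
      mul_mem' := fun {a b} ha hb x => by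
        have := W.add_mem (ha (b • x)) (hb x)
        rw [mul_smul]
        simpa using this
      inv_mem' := fun {a} ha x => by
        have := W.neg_mem (ha (a⁻¹ • x))
        rw [smul_inv_smul] at this
        simpa using this }
  have key : ∀ (g : G) (x : X), (Pi.single (g • x) 1 - Pi.single x 1 : X → k)
      = -((actL k g - 1 : (X → k) →ₗ[k] (X → k)) (Pi.single (g • x) 1)) := by
    intro g x
    rw [LinearMap.sub_apply, actL_single]
    simp
  have hgenH : ∀ g : G, g ∈ H := by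
    have hle : Subgroup.closure {S, U} ≤ H := by
      rw [Subgroup.closure_le]
      rintro g (rfl | rfl)
      · intro x
        rw [key]
        exact W.neg_mem (Submodule.mem_sup_left ⟨_, rfl⟩)
      · intro x
        rw [key]
        exact W.neg_mem (Submodule.mem_sup_right ⟨_, rfl⟩)
    intro g
    exact hle (hgen ▸ Subgroup.mem_top g)
  have htop : (⊤ : Submodule k (X → k)) ≤ W ⊔ Submodule.span k {(Pi.single x₀ 1 : X → k)} := by
    rw [← (Pi.basisFun k X).span_eq, Submodule.span_le]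
    rintro _ ⟨x, rfl⟩
    obtain ⟨g, rfl⟩ := MulAction.exists_smul_eq G x₀ x
    have h1 : (Pi.single (g • x₀) 1 - Pi.single x₀ 1 : X → k) ∈ W := hgenH g x₀
    have h2 : (Pi.single (g • x₀) 1 : X → k)
        = (Pi.single (g • x₀) 1 - Pi.single x₀ 1) + Pi.single x₀ 1 := by abel
    rw [Pi.basisFun_apply, SetLike.mem_coe, h2]
    exact Submodule.add_mem _ (Submodule.mem_sup_left h1)
      (Submodule.mem_sup_right (Submodule.mem_span_singleton_self _))
  have h1 := Submodule.finrank_mono htop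
  rw [finrank_top, Module.finrank_fintype_fun_eq_card, ← Nat.card_eq_fintype_card] at h1
  have h2 := Submodule.finrank_add_le_finrank_add_finrank W
    (Submodule.span k {(Pi.single x₀ 1 : X → k)})
  have h0 : (Pi.single x₀ 1 : X → k) ≠ 0 := fun h => by
    have := congrFun h x₀
    simp at this
  have h3 : Module.finrank k (Submodule.span k {(Pi.single x₀ 1 : X → k)}) ≤ 1 :=
    (finrank_span_singleton h0).le
  omega

end PermRep

section LinAlg

variable (k : Type*) [Field k]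

/-- The dimension count for pairs `(a, b) ∈ R₁ × R₂` with `Nm (b - a) = 0`. -/
theorem finrank_pairs_add_le {V : Type*} [AddCommGroup V] [Module k V] [FiniteDimensional k V]
    (R₁ R₂ : Submodule k V) (Nm : V →ₗ[k] V) :
    Module.finrank k
        ↥((R₁.prod R₂) ⊓ LinearMap.ker (Nm ∘ₗ (LinearMap.snd k V V - LinearMap.fst k V V)))
      + Module.finrank k ↥(R₁ ⊔ R₂)
      ≤ Module.finrank k R₁ + Module.finrank k R₂ + Module.finrank k (LinearMap.ker Nm) := by
  set Z := (R₁.prod R₂) ⊓ LinearMap.ker (Nm ∘ₗ (LinearMap.snd k V V - LinearMap.fst k V V))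
    with hZ
  let D : Z →ₗ[k] LinearMap.ker Nm :=
    LinearMap.codRestrict (LinearMap.ker Nm)
      ((LinearMap.snd k V V - LinearMap.fst k V V) ∘ₗ Z.subtype)
      (fun p => by
        have := p.2.2
        simpa using this)
  have hD : ∀ p : Z, D p = 0 → p.1.2 = p.1.1 := by
    intro p hp
    have := congrArg Subtype.val hp
    simpa [D, sub_eq_zero] using this
  have h1 := LinearMap.finrank_range_add_finrank_ker D
  have h2 : Module.finrank k (LinearMap.range D) ≤ Module.finrank k (LinearMap.ker Nm) :=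
    Submodule.finrank_le _
  let E : LinearMap.ker D →ₗ[k] ↥(R₁ ⊓ R₂) :=
    LinearMap.codRestrict (R₁ ⊓ R₂)
      (LinearMap.fst k V V ∘ₗ Z.subtype ∘ₗ (LinearMap.ker D).subtype)
      (fun p => by
        have hab := hD p.1 p.2
        have hmem := p.1.2.1
        refine ⟨hmem.1, ?_⟩
        show p.1.1.1 ∈ R₂
        rw [← hab]
        exact hmem.2)
  have hE : Function.Injective E := by
    intro p q hpq
    have h1 : p.1.1.1 = q.1.1.1 := congrArg Subtype.val hpq
    have hp := hD p.1 p.2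
    have hq := hD q.1 q.2
    apply Subtype.ext
    apply Subtype.ext
    exact Prod.ext h1 (by rw [hp, hq, h1])
  have h3 := LinearMap.finrank_le_finrank_of_injective hE
  have h4 := Submodule.finrank_sup_add_finrank_inf_eq R₁ R₂
  omega

end LinAlg

section Cocycle

variable {G : Type*} [Group G] (Γ : Subgroup G) (k : Type*) [Field k]

theorem cocElt_mem (g : G) (x : G ⧸ Γ) :
    (Quotient.out (g • x))⁻¹ * (g * Quotient.out x) ∈ Γ := by
  rw [← QuotientGroup.eq, QuotientGroup.out_eq']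
  conv_lhs => rw [← QuotientGroup.out_eq' x]
  rfl

/-- The element of `Γ` attached to `g` and the coset `x` by the section `Quotient.out`. -/
noncomputable def cocElt (g : G) (x : G ⧸ Γ) : Γ :=
  ⟨(Quotient.out (g • x))⁻¹ * (g * Quotient.out x), cocElt_mem Γ g x⟩

theorem coe_cocElt (g : G) (x : G ⧸ Γ) :
    (cocElt Γ g x : G) = (Quotient.out (g • x))⁻¹ * (g * Quotient.out x) := rfl

theorem coe_cocElt_of_smul_eq (g : G) (x : G ⧸ Γ) (h : g • x = x) :
    (cocElt Γ g x : G) = (Quotient.out x)⁻¹ * (g * Quotient.out x) := by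
  rw [coe_cocElt, h]

theorem cocElt_mul (g h : G) (x : G ⧸ Γ) :
    cocElt Γ (g * h) x = cocElt Γ g (h • x) * cocElt Γ h x := by
  apply Subtype.ext
  simp only [coe_cocElt, Subgroup.coe_mul, mul_smul]
  group

/-- The cocycle attached to a homomorphism `φ : Γ → k`, evaluated at `g`. -/
noncomputable def coc (g : G) : (Additive Γ →+ k) →ₗ[k] ((G ⧸ Γ) → k) where
  toFun φ := fun x => φ (Additive.ofMul (cocElt Γ g x))
  map_add' _ _ := rfl
  map_smul' _ _ := rfl

theorem coc_apply (g : G) (φ : Additive Γ →+ k) (x : G ⧸ Γ) :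
    coc Γ k g φ x = φ (Additive.ofMul (cocElt Γ g x)) := rfl

theorem coc_mul (g h : G) (φ : Additive Γ →+ k) :
    coc Γ k (g * h) φ = actL k h (coc Γ k g φ) + coc Γ k h φ := by
  funext x
  simp only [Pi.add_apply, actL_apply, coc_apply, cocElt_mul, ofMul_mul, map_add]

/-- The cocycle attached to `(φ, v)`: the cocycle of `φ` plus the coboundary of `v`. -/
noncomputable def cc (g : G) : ((Additive Γ →+ k) × ((G ⧸ Γ) → k)) →ₗ[k] ((G ⧸ Γ) → k) :=
  coc Γ k g ∘ₗ LinearMap.fst k _ _ + (actL k g - 1) ∘ₗ LinearMap.snd k _ _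

theorem cc_apply (g : G) (p : (Additive Γ →+ k) × ((G ⧸ Γ) → k)) :
    cc Γ k g p = coc Γ k g p.1 + (actL k g p.2 - p.2) := rfl

theorem cc_mul (g h : G) (p : (Additive Γ →+ k) × ((G ⧸ Γ) → k)) :
    cc Γ k (g * h) p = actL k h (cc Γ k g p) + cc Γ k h p := by
  rw [cc_apply, cc_apply, cc_apply, coc_mul, actL_mul_apply, map_add, map_sub]
  abel

theorem cc_one (p : (Additive Γ →+ k) × ((G ⧸ Γ) → k)) : cc Γ k 1 p = 0 := by
  have h := cc_mul Γ k 1 1 p
  rw [mul_one, actL_one_apply] at h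
  exact left_eq_add.mp h

theorem cc_pow (g : G) (m : ℕ) (p : (Additive Γ →+ k) × ((G ⧸ Γ) → k)) :
    cc Γ k (g ^ m) p = nrm k g m (cc Γ k g p) := by
  induction m with
  | zero => simp [nrm, cc_one]
  | succ m ih =>
    rw [pow_succ, cc_mul, ih, nrm_apply, nrm_apply, Finset.sum_range_succ', map_sum, pow_zero,
      actL_one_apply]
    congr 1
    refine Finset.sum_congr rfl fun i _ => ?_
    rw [pow_succ, actL_mul_apply]

/-- The set where a cocycle vanishes is a subgroup. -/
def zeroSub (p : (Additive Γ →+ k) × ((G ⧸ Γ) → k)) : Subgroup G where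
  carrier := {g | cc Γ k g p = 0}
  one_mem' := cc_one Γ k p
  mul_mem' := fun {a b} ha hb => by
    show cc Γ k (a * b) p = 0
    rw [cc_mul, show cc Γ k a p = 0 from ha, show cc Γ k b p = 0 from hb, map_zero, add_zero]
  inv_mem' := fun {a} ha => by
    show cc Γ k a⁻¹ p = 0
    have h := cc_mul Γ k a⁻¹ a p
    rw [inv_mul_cancel, cc_one, show cc Γ k a p = 0 from ha, add_zero] at h
    have h2 := congrArg (actL k a⁻¹) h
    rw [map_zero, ← actL_mul_apply, mul_inv_cancel, actL_one_apply] at h2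
    exact h2.symm

/-- Evaluating the cocycle of `φ` at `γ ∈ Γ` and the base coset gives back `φ γ`. -/
theorem coc_base (φ : Additive Γ →+ k) (γ : Γ) :
    coc Γ k (γ : G) φ ((1 : G) : G ⧸ Γ) = φ (Additive.ofMul γ) := by
  have hx : (γ : G) • (((1 : G) : G ⧸ Γ)) = ((1 : G) : G ⧸ Γ) := by
    rw [MulAction.Quotient.smul_mk, smul_eq_mul, mul_one, QuotientGroup.eq, mul_one]
    exact Γ.inv_mem γ.2
  have hout : (Quotient.out (((1 : G) : G ⧸ Γ))) ∈ Γ := by
    have := QuotientGroup.out_eq' (((1 : G) : G ⧸ Γ))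
    rw [QuotientGroup.eq] at this
    simpa using Γ.inv_mem this
  set δ : Γ := ⟨_, hout⟩ with hδ
  have hc : cocElt Γ (γ : G) ((1 : G) : G ⧸ Γ) = δ⁻¹ * (γ * δ) := by
    apply Subtype.ext
    rw [coe_cocElt_of_smul_eq Γ _ _ hx]
    rfl
  rw [coc_apply, hc, ofMul_mul, ofMul_mul, ofMul_inv, map_add, map_add, map_neg]
  ring

end Cocycle

section Bound

variable {G : Type*} [Group G] (Γ : Subgroup G)

/-- **Abstract dimension bound.**  `Γ` of finite index in `G = ⟨S, T⟩`; `P` a space of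
homomorphisms `Γ → ℂ` killing the `Γ`-conjugates of `z = S² = (ST)³` (acting trivially on
`G ⧸ Γ`) and of `T ^ m` (acting trivially on `G ⧸ Γ`).  Then
`dim P + o(S) + o(ST) + o(T) ≤ [G : Γ] + 2`. -/
theorem abstract_bound [Finite (G ⧸ Γ)]
    (P : Submodule ℂ (Additive Γ →+ ℂ)) (S T z : G) (m : ℕ) (hm : 0 < m)
    (hgen : Subgroup.closure {S, T} = ⊤)
    (hz : ∀ x : G ⧸ Γ, z • x = x)
    (hzφ : ∀ φ ∈ P, ∀ x : G ⧸ Γ, φ (Additive.ofMul (cocElt Γ z x)) = 0)
    (hS : S * S = z) (hU : (S * T) * (S * T) * (S * T) = z)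
    (hTm : ∀ x : G ⧸ Γ, T ^ m • x = x)
    (hTφ : ∀ φ ∈ P, ∀ x : G ⧸ Γ, φ (Additive.ofMul (cocElt Γ (T ^ m) x)) = 0) :
    FiniteDimensional ℂ P ∧
      Module.finrank ℂ P + orbCount (MulAction.toPerm S : Equiv.Perm (G ⧸ Γ))
        + orbCount (MulAction.toPerm (S * T) : Equiv.Perm (G ⧸ Γ))
        + orbCount (MulAction.toPerm T : Equiv.Perm (G ⧸ Γ)) ≤ Nat.card (G ⧸ Γ) + 2 := by
  classical
  set U := S * T with hUdef
  set x₀ : G ⧸ Γ := ((1 : G) : G ⧸ Γ) with hx₀
  have hgen' : Subgroup.closure {S, U} = ⊤ := by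
    rw [eq_top_iff, ← hgen, Subgroup.closure_le]
    rintro g (rfl | rfl)
    · exact Subgroup.subset_closure (Set.mem_insert _ _)
    · have h1 : g = S⁻¹ * U := by rw [hUdef, inv_mul_cancel_left]
      rw [SetLike.mem_coe, h1]
      exact Subgroup.mul_mem _
        (Subgroup.inv_mem _ (Subgroup.subset_closure (Set.mem_insert _ _)))
        (Subgroup.subset_closure (Set.mem_insert_of_mem _ rfl))
  set R₁ := LinearMap.range (actL ℂ S - 1 : ((G ⧸ Γ) → ℂ) →ₗ[ℂ] ((G ⧸ Γ) → ℂ)) with hR₁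
  set R₂ := LinearMap.range (actL ℂ U - 1 : ((G ⧸ Γ) → ℂ) →ₗ[ℂ] ((G ⧸ Γ) → ℂ)) with hR₂
  set Nm : ((G ⧸ Γ) → ℂ) →ₗ[ℂ] ((G ⧸ Γ) → ℂ) := nrm ℂ T m with hNm
  set Z := (R₁.prod R₂) ⊓ LinearMap.ker
    (Nm ∘ₗ (LinearMap.snd ℂ ((G ⧸ Γ) → ℂ) ((G ⧸ Γ) → ℂ) - LinearMap.fst ℂ _ _)) with hZ
  have h2k : (2 : ℂ) ≠ 0 := two_ne_zero
  have h3k : (3 : ℂ) ≠ 0 := three_ne_zero
  -- `z` kills everything
  have hzcc : ∀ p : (Additive Γ →+ ℂ) × ((G ⧸ Γ) → ℂ), p.1 ∈ P → cc Γ ℂ z p = 0 := by
    intro p hp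
    rw [cc_apply]
    have h1 : coc Γ ℂ z p.1 = 0 := by funext x; exact hzφ p.1 hp x
    have h2 : actL ℂ z p.2 = p.2 := by funext x; simp [hz x]
    rw [h1, h2, sub_self, add_zero]
  have hSmem : ∀ p : (Additive Γ →+ ℂ) × ((G ⧸ Γ) → ℂ), p.1 ∈ P → cc Γ ℂ S p ∈ R₁ := by
    intro p hp
    have h := cc_mul Γ ℂ S S p
    rw [hS, hzcc p hp] at h
    have hw : actL ℂ S (cc Γ ℂ S p) = -cc Γ ℂ S p := eq_neg_of_add_eq_zero_left h.symm
    refine ⟨(-(2 : ℂ)⁻¹) • cc Γ ℂ S p, ?_⟩
    rw [map_smul, LinearMap.sub_apply, Module.End.one_apply, hw]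
    funext x
    simp only [Pi.smul_apply, Pi.sub_apply, Pi.neg_apply, smul_eq_mul]
    field_simp
    ring
  have hUmem : ∀ p : (Additive Γ →+ ℂ) × ((G ⧸ Γ) → ℂ), p.1 ∈ P → cc Γ ℂ U p ∈ R₂ := by
    intro p hp
    have h1 := cc_mul Γ ℂ U U p
    have h2 := cc_mul Γ ℂ (U * U) U p
    rw [hU, hzcc p hp, h1, map_add] at h2
    have hAA : actL ℂ U (actL ℂ U (cc Γ ℂ U p)) = -actL ℂ U (cc Γ ℂ U p) - cc Γ ℂ U p := by
      have := h2.symm
      rw [add_assoc] at this
      rw [eq_neg_of_add_eq_zero_left this]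
      abel
    refine ⟨(-(3 : ℂ)⁻¹) • (actL ℂ U (cc Γ ℂ U p) + (2 : ℂ) • cc Γ ℂ U p), ?_⟩
    rw [map_smul, LinearMap.sub_apply, Module.End.one_apply, map_add, map_smul, hAA]
    funext x
    simp only [Pi.smul_apply, Pi.sub_apply, Pi.neg_apply, Pi.add_apply, smul_eq_mul]
    field_simp
    ring
  have hTker : ∀ p : (Additive Γ →+ ℂ) × ((G ⧸ Γ) → ℂ), p.1 ∈ P →
      Nm (cc Γ ℂ U p - cc Γ ℂ S p) = 0 := by
    intro p hp
    have h1 := cc_mul Γ ℂ S T p
    have h2 := cc_pow Γ ℂ T m p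
    have h3 : cc Γ ℂ (T ^ m) p = 0 := by
      rw [cc_apply]
      have h1 : coc Γ ℂ (T ^ m) p.1 = 0 := by funext x; exact hTφ p.1 hp x
      have h2 : actL ℂ (T ^ m) p.2 = p.2 := by funext x; simp [hTm x]
      rw [h1, h2, sub_self, add_zero]
    have h4 := nrm_actL ℂ T m hTm (cc Γ ℂ S p)
    rw [h3] at h2
    rw [h1, map_sub, map_add, h4, ← h2]
    abel
  let Θ : ((Additive Γ →+ ℂ) × ((G ⧸ Γ) → ℂ)) →ₗ[ℂ] ((G ⧸ Γ) → ℂ) × ((G ⧸ Γ) → ℂ) :=
    (cc Γ ℂ S).prod (cc Γ ℂ U)
  have hΘZ : ∀ p : (Additive Γ →+ ℂ) × ((G ⧸ Γ) → ℂ), p.1 ∈ P → Θ p ∈ Z := by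
    intro p hp
    refine ⟨⟨hSmem p hp, hUmem p hp⟩, ?_⟩
    show Nm (cc Γ ℂ U p - cc Γ ℂ S p) = 0
    exact hTker p hp
  have hΘinj : ∀ p : (Additive Γ →+ ℂ) × ((G ⧸ Γ) → ℂ), Θ p = 0 →
      p.1 = 0 ∧ ∀ g : G, actL ℂ g p.2 = p.2 := by
    intro p hp
    have hS0 : cc Γ ℂ S p = 0 := congrArg Prod.fst hp
    have hU0 : cc Γ ℂ U p = 0 := congrArg Prod.snd hp
    have hall : ∀ g : G, cc Γ ℂ g p = 0 := by
      have hle : Subgroup.closure {S, U} ≤ zeroSub Γ ℂ p := by
        rw [Subgroup.closure_le]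
        rintro g (rfl | rfl)
        · exact hS0
        · exact hU0
      intro g
      exact hle (hgen' ▸ Subgroup.mem_top g)
    have hφ : p.1 = 0 := by
      refine AddMonoidHom.ext fun γ' => ?_
      obtain ⟨γ, rfl⟩ : ∃ γ : Γ, Additive.ofMul γ = γ' := ⟨Additive.toMul γ', rfl⟩
      have h := congrFun (hall (γ : G)) x₀
      rw [cc_apply] at h
      have hx : (γ : G) • x₀ = x₀ := by
        rw [hx₀, MulAction.Quotient.smul_mk, smul_eq_mul, mul_one, QuotientGroup.eq, mul_one]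
        exact Γ.inv_mem γ.2
      simp only [Pi.add_apply, Pi.sub_apply, actL_apply, hx, sub_self, add_zero,
        Pi.zero_apply] at h
      rw [hx₀, coc_base] at h
      exact h
    refine ⟨hφ, fun g => ?_⟩
    have h := hall g
    rw [cc_apply, hφ, map_zero, zero_add, sub_eq_zero] at h
    exact h
  let V₀ : Submodule ℂ ((G ⧸ Γ) → ℂ) :=
    LinearMap.ker (LinearMap.proj x₀ : ((G ⧸ Γ) → ℂ) →ₗ[ℂ] ℂ)
  let Θ' : (↥P × ↥V₀) →ₗ[ℂ] ↥Z :=
    LinearMap.codRestrict Z (Θ ∘ₗ (LinearMap.prodMap P.subtype V₀.subtype))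
      (fun q => hΘZ _ q.1.2)
  have hΘ'inj : Function.Injective Θ' := by
    refine (injective_iff_map_eq_zero Θ').mpr fun q hq => ?_
    have h0 : Θ ((q.1 : Additive Γ →+ ℂ), (q.2 : (G ⧸ Γ) → ℂ)) = 0 := congrArg Subtype.val hq
    obtain ⟨h1, h2⟩ := hΘinj _ h0
    have hv : (q.2 : (G ⧸ Γ) → ℂ) = 0 := by
      funext x
      obtain ⟨g, rfl⟩ := QuotientGroup.mk_surjective x
      have h3 := congrFun (h2 g) x₀
      have h4 : (q.2 : (G ⧸ Γ) → ℂ) x₀ = 0 := q.2.2
      simp only [actL_apply] at h3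
      have h5 : g • x₀ = ((g : G) : G ⧸ Γ) := by
        rw [hx₀, MulAction.Quotient.smul_mk, smul_eq_mul, mul_one]
      rw [h5] at h3
      rw [h3, h4]
      rfl
    exact Prod.ext (Subtype.ext h1) (Subtype.ext hv)
  have hfinP : Module.Finite ℂ P :=
    Module.Finite.of_injective (Θ' ∘ₗ LinearMap.inl ℂ P V₀)
      (hΘ'inj.comp LinearMap.inl_injective)
  have hfreeP : Module.Free ℂ P := Module.Free.of_divisionRing ℂ P
  refine ⟨hfinP, ?_⟩
  have e1 : Module.finrank ℂ (↥P × ↥V₀) ≤ Module.finrank ℂ Z :=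
    LinearMap.finrank_le_finrank_of_injective hΘ'inj
  rw [Module.finrank_prod] at e1
  have e2 : Module.finrank ℂ V₀ + 1 = Nat.card (G ⧸ Γ) := by
    let _ := Fintype.ofFinite (G ⧸ Γ)
    have h : Module.finrank ℂ (LinearMap.range (LinearMap.proj x₀ : ((G ⧸ Γ) → ℂ) →ₗ[ℂ] ℂ))
        + Module.finrank ℂ V₀ = Module.finrank ℂ ((G ⧸ Γ) → ℂ) :=
      LinearMap.finrank_range_add_finrank_ker _
    rw [LinearMap.range_eq_top.mpr (LinearMap.proj_surjective x₀), finrank_top,
      Module.finrank_self, Module.finrank_fintype_fun_eq_card, ← Nat.card_eq_fintype_card] at h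
    omega
  have e3 : Module.finrank ℂ Z + Module.finrank ℂ ↥(R₁ ⊔ R₂)
      ≤ Module.finrank ℂ R₁ + Module.finrank ℂ R₂ + Module.finrank ℂ (LinearMap.ker Nm) :=
    finrank_pairs_add_le ℂ R₁ R₂ Nm
  have e4 : Module.finrank ℂ R₁ + orbCount (MulAction.toPerm S : Equiv.Perm (G ⧸ Γ))
      = Nat.card (G ⧸ Γ) := finrank_range_actL_sub_one ℂ S
  have e5 : Module.finrank ℂ R₂ + orbCount (MulAction.toPerm U : Equiv.Perm (G ⧸ Γ))
      = Nat.card (G ⧸ Γ) := finrank_range_actL_sub_one ℂ U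
  have e6 : Module.finrank ℂ (LinearMap.ker Nm)
      + orbCount (MulAction.toPerm T : Equiv.Perm (G ⧸ Γ)) ≤ Nat.card (G ⧸ Γ) :=
    finrank_ker_nrm_le ℂ T m (Nat.cast_ne_zero.mpr hm.ne')
  have e7 : Nat.card (G ⧸ Γ) ≤ Module.finrank ℂ ↥(R₁ ⊔ R₂) + 1 :=
    card_le_finrank_sup ℂ S U hgen'
  omega

end Bound

section Modular

open scoped MatrixGroups
open ModularGroup CongruenceSubgroup Matrix

theorem neg_one_mem_Gamma0 (N : ℕ) : (-1 : SL(2, ℤ)) ∈ Gamma0 N := by
  rw [Gamma0_mem]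
  simp

theorem inv_mul_neg_one_mul (g : SL(2, ℤ)) : g⁻¹ * (-1 * g) = -1 := by
  rw [neg_one_mul, mul_neg, inv_mul_cancel]

theorem neg_one_smul_X0 (N : ℕ) (x : X0 N) : (-1 : SL(2, ℤ)) • x = x := by
  obtain ⟨g, rfl⟩ := QuotientGroup.mk_surjective x
  rw [MulAction.Quotient.smul_mk, smul_eq_mul]
  symm
  rw [QuotientGroup.eq, inv_mul_neg_one_mul]
  exact neg_one_mem_Gamma0 N

theorem S_sq : S * S = (-1 : SL(2, ℤ)) := by decide

theorem ST_cube : (S * T) * (S * T) * (S * T) = (-1 : SL(2, ℤ)) := by decide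

theorem trace_conj (a t : SL(2, ℤ)) :
    ((a⁻¹ * (t * a) : SL(2, ℤ)) : Matrix (Fin 2) (Fin 2) ℤ).trace
      = (t : Matrix (Fin 2) (Fin 2) ℤ).trace := by
  rw [Matrix.SpecialLinearGroup.coe_mul, Matrix.SpecialLinearGroup.coe_mul,
    Matrix.trace_mul_comm, Matrix.mul_assoc, ← Matrix.SpecialLinearGroup.coe_mul, mul_inv_cancel,
    Matrix.SpecialLinearGroup.coe_one, Matrix.mul_one]

theorem trace_cocElt (N : ℕ) (t : SL(2, ℤ)) (x : X0 N) (h : t • x = x) :
    ((cocElt (Gamma0 N) t x : SL(2, ℤ)) : Matrix (Fin 2) (Fin 2) ℤ).trace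
      = (t : Matrix (Fin 2) (Fin 2) ℤ).trace := by
  rw [coe_cocElt_of_smul_eq _ _ _ h, trace_conj]

/-- **ES / E3.**  The space of parabolic homomorphisms `Γ₀(N) → ℂ` is finite-dimensional, of
dimension at most `[SL₂(ℤ) : Γ₀(N)] + 2 - o(S) - o(ST) - o(T)` (`= 2 g(X₀(N))`). -/
theorem parabolicHoms_bound (N : ℕ) [NeZero N] :
    FiniteDimensional ℂ (ModularCurve.Period.parabolicHoms ℂ (Gamma0 N) ℂ) ∧
      Module.finrank ℂ (ModularCurve.Period.parabolicHoms ℂ (Gamma0 N) ℂ)
        + orbCount (cosetPerm N S) + orbCount (cosetPerm N (S * T)) + orbCount (cosetPerm N T)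
        ≤ Nat.card (X0 N) + 2 := by
  classical
  set m := orderOf (cosetPerm N T) with hm
  have hmpos : 0 < m := orderOf_pos _
  have hTm : ∀ x : X0 N, (T ^ m : SL(2, ℤ)) • x = x := by
    intro x
    have h := pow_orderOf_eq_one (cosetPerm N T)
    have h2 : cosetPerm N (T ^ m) = cosetPerm N T ^ m :=
      map_pow (MulAction.toPermHom SL(2, ℤ) (X0 N)) T m
    rw [← hm] at h
    rw [h] at h2
    have := congrArg (fun π : Equiv.Perm (X0 N) => π x) h2
    simpa [cosetPerm_apply] using this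
  refine abstract_bound (Gamma0 N) (ModularCurve.Period.parabolicHoms ℂ (Gamma0 N) ℂ) S T (-1) m
    hmpos SpecialLinearGroup.SL2Z_generators (neg_one_smul_X0 N) ?_ S_sq ST_cube hTm ?_
  · intro φ hφ x
    refine hφ _ ?_
    rw [trace_cocElt N _ x (neg_one_smul_X0 N x)]
    simp
  · intro φ hφ x
    refine hφ _ ?_
    rw [trace_cocElt N _ x (hTm x), ← zpow_natCast, coe_T_zpow]
    simp [Matrix.trace_fin_two_of]

end Modular

end ParabolicDim

open scoped MatrixGroups in
/-- The space of parabolic homomorphisms `Γ₀(N) → ℂ` is finite-dimensional. -/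
theorem finiteDimensional_parabolicHoms (N : ℕ) [NeZero N] :
    FiniteDimensional ℂ
      (ModularCurve.Period.parabolicHoms ℂ (CongruenceSubgroup.Gamma0 N) ℂ) :=
  (ParabolicDim.parabolicHoms_bound N).1

open scoped MatrixGroups in
/-- **ES / E3**, additive form:
`dim Hom_par(Γ₀(N), ℂ) + o(S) + o(ST) + o(T) ≤ [SL₂(ℤ) : Γ₀(N)] + 2`. -/
theorem finrank_parabolicHoms_add_orbCount_le (N : ℕ) [NeZero N] :
    Module.finrank ℂ (ModularCurve.Period.parabolicHoms ℂ (CongruenceSubgroup.Gamma0 N) ℂ)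
        + orbCount (cosetPerm N ModularGroup.S)
        + orbCount (cosetPerm N (ModularGroup.S * ModularGroup.T))
        + orbCount (cosetPerm N ModularGroup.T)
      ≤ Nat.card (X0 N) + 2 :=
  (ParabolicDim.parabolicHoms_bound N).2

open scoped MatrixGroups in
/-- **ES / E3** (the statement of the team skeleton): the space of parabolic homomorphisms
`Γ₀(N) → ℂ` is finite-dimensional of dimension at most `n - o(ST) - o(S) - o(T) + 2`. -/
theorem finrank_parabolicHoms_le (N : ℕ) [NeZero N] :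
    Module.Finite ℂ (ModularCurve.Period.parabolicHoms ℂ (CongruenceSubgroup.Gamma0 N) ℂ) ∧
    (Module.finrank ℂ (ModularCurve.Period.parabolicHoms ℂ (CongruenceSubgroup.Gamma0 N) ℂ) : ℤ)
      ≤ (Nat.card (X0 N) : ℤ)
        - orbCount (cosetPerm N (ModularGroup.S * ModularGroup.T))
        - orbCount (cosetPerm N ModularGroup.S)
        - orbCount (cosetPerm N ModularGroup.T) + 2 := by
  refine ⟨finiteDimensional_parabolicHoms N, ?_⟩
  have h := finrank_parabolicHoms_add_orbCount_le N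
  omega

open scoped MatrixGroups in
/-- **ES / E3**, genus form: if `2 g = n - o(ST) - o(S) - o(T) + 2` (the shape of
`Fermat.Agent.S24.exists_genus_X0`), then `dim Hom_par(Γ₀(N), ℂ) ≤ 2 g`. -/
theorem finrank_parabolicHoms_le_two_mul (N : ℕ) [NeZero N] (g : ℕ)
    (hg : (2 * g : ℤ) = (Nat.card (X0 N) : ℤ)
      - orbCount (cosetPerm N (ModularGroup.S * ModularGroup.T))
      - orbCount (cosetPerm N ModularGroup.S) - orbCount (cosetPerm N ModularGroup.T) + 2) :
    Module.finrank ℂ (ModularCurve.Period.parabolicHoms ℂ (CongruenceSubgroup.Gamma0 N) ℂ)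
      ≤ 2 * g := by
  have h := finrank_parabolicHoms_add_orbCount_le N
  omega

end Fermat.Agent.ES
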