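import Mathlib
import Fermat.Prelude.Def_ModularCurve_PeriodHomPair
import Fermat.Agent.S22_Prim2
import Fermat.Agent.S22.DecCusp

/-!
# TEAM ES (S21), package E1: the canonical primitive of a weight 2 cusp form

For `f ∈ S₂(Γ₀(N))` the function `F := S22.prim f` (the primitive vanishing at `i∞`) is an
equivariant primitive in the sense of the prelude; the period map is
`γ ↦ F (γ • z) - F z`, it is linear in `f` and takes values in the parabolic homomorphisms.
-/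

set_option autoImplicit false

namespace Fermat.Agent.ES

open UpperHalfPlane CongruenceSubgroup ModularCurve ModularCurve.Period Filter Topology
open scoped MatrixGroups ModularForm Manifold
open Fermat.Agent.S22 (HasDerivH Dec prim)

/-- Two primitives of the same function on `ℍ` differ by a constant. -/
theorem prim_sub_const {F F' f : ℍ → ℂ} (h : HasDerivH F f) (h' : HasDerivH F' f) (τ τ' : ℍ) :
    F τ - F' τ = F τ' - F' τ' := by
  have hdiff : DifferentiableOn ℂ (F ∘ ofComplex - F' ∘ ofComplex) {z : ℂ | 0 < z.im} :=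
    fun z hz => ((h ⟨z, hz⟩).sub (h' ⟨z, hz⟩)).differentiableAt.differentiableWithinAt
  have hconv : Convex ℝ {z : ℂ | 0 < z.im} := convex_halfSpace_im_gt 0
  have hzero : Set.EqOn (fderiv ℂ (F ∘ ofComplex - F' ∘ ofComplex)) 0 {z : ℂ | 0 < z.im} := by
    intro z hz
    have := ((h ⟨z, hz⟩).sub (h' ⟨z, hz⟩)).hasFDerivAt.fderiv
    simpa using this
  have := isOpen_upperHalfPlaneSet.is_const_of_fderiv_eq_zero hconv.isPreconnected hdiff hzero
    τ.im_pos τ'.im_pos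
  simpa using this

theorem rmap_mapGL (g : SL(2, ℤ)) :
    Fermat.Agent.S22.rmap (Matrix.SpecialLinearGroup.mapGL ℚ g) =
      Matrix.SpecialLinearGroup.mapGL ℝ g := by
  ext i j
  simp [Fermat.Agent.S22.rmap]

/-- Every `SL(2, ℤ)`-translate of a cusp form on `Γ₀(N)` is holomorphic, periodic and vanishes at
`i∞`. -/
theorem dec_slash {N : ℕ} [NeZero N] {k : ℤ} (f : CuspForm (Gamma0 N) k) (δ : SL(2, ℤ)) :
    Dec (⇑f ∣[k] δ) := by
  have h := Fermat.Agent.S22.dec_slash_cuspForm f (Matrix.SpecialLinearGroup.mapGL ℚ δ)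
  rw [rmap_mapGL] at h
  exact h

theorem dec_coe {N : ℕ} [NeZero N] {k : ℤ} (f : CuspForm (Gamma0 N) k) : Dec ⇑f := by
  have h := dec_slash f 1
  rwa [SlashAction.slash_one] at h

/-- Chain rule: `F ∘ δ` is a primitive of `f ∣[2] δ`. -/
theorem hasDerivH_comp_SL {F f : ℍ → ℂ} (h : HasDerivH F f) (δ : SL(2, ℤ)) :
    HasDerivH (fun τ => F (δ • τ)) (f ∣[(2 : ℤ)] δ) := by
  have hpos : 0 < (Matrix.SpecialLinearGroup.mapGL ℝ δ : GL (Fin 2) ℝ).det.val := by simp
  have h1 := h.comp_smul (Matrix.SpecialLinearGroup.mapGL ℝ δ) hpos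
  intro τ
  refine (h1 τ).congr_deriv ?_
  rw [ModularForm.SL_slash_apply]
  have hdet : ((Matrix.SpecialLinearGroup.mapGL ℝ δ : GL (Fin 2) ℝ) :
      Matrix (Fin 2) (Fin 2) ℝ).det = 1 := by
    have h2 := congrArg Units.val (Matrix.SpecialLinearGroup.det_mapGL (S := ℝ) δ)
    exact h2
  have e1 : (Matrix.SpecialLinearGroup.mapGL ℝ δ : GL (Fin 2) ℝ) • τ = δ • τ := rfl
  have e2 : denom (Matrix.SpecialLinearGroup.mapGL ℝ δ : GL (Fin 2) ℝ) (τ : ℂ) =
      denom (Matrix.SpecialLinearGroup.toGL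
        ((Matrix.SpecialLinearGroup.map (Int.castRingHom ℝ)) δ)) τ := rfl
  beta_reduce
  rw [hdet, e1, e2, zpow_neg]
  norm_cast
  simp [div_eq_mul_inv]

theorem slash_eq_of_mem {N : ℕ} {k : ℤ} (f : CuspForm (Gamma0 N) k) {γ : SL(2, ℤ)}
    (hγ : γ ∈ Gamma0 N) : ⇑f ∣[k] γ = ⇑f :=
  SlashInvariantForm.slash_action_eqn f (Matrix.SpecialLinearGroup.mapGL ℝ γ)
    (Subgroup.mem_map_of_mem _ hγ)

/-- `F (γ • z) - F z` does not depend on `z`, for `γ ∈ Γ₀(N)`. -/
theorem prim_smul_sub_const {N : ℕ} [NeZero N] (f : CuspForm (Gamma0 N) 2) {γ : SL(2, ℤ)}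
    (hγ : γ ∈ Gamma0 N) (z z' : ℍ) :
    prim f (γ • z) - prim f z = prim f (γ • z') - prim f z' := by
  have h0 : HasDerivH (prim f) f := (dec_coe f).hasDerivH_prim
  have h1 := hasDerivH_comp_SL h0 γ
  rw [slash_eq_of_mem f hγ] at h1
  exact prim_sub_const h1 h0 z z'

/-- `F ∘ δ` differs from the normalised primitive of `f ∣[2] δ` by a constant. -/
theorem prim_smul_eq {N : ℕ} [NeZero N] (f : CuspForm (Gamma0 N) 2) (δ : SL(2, ℤ)) :
    ∃ c : ℂ, ∀ w : ℍ, prim f (δ • w) = prim (⇑f ∣[(2 : ℤ)] δ) w + c := by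
  have h0 : HasDerivH (prim f) f := (dec_coe f).hasDerivH_prim
  have h1 := hasDerivH_comp_SL h0 δ
  have h2 : HasDerivH (prim (⇑f ∣[(2 : ℤ)] δ)) (⇑f ∣[(2 : ℤ)] δ) := (dec_slash f δ).hasDerivH_prim
  refine ⟨prim f (δ • UpperHalfPlane.I) - prim (⇑f ∣[(2 : ℤ)] δ) UpperHalfPlane.I, fun w => ?_⟩
  have := prim_sub_const h1 h2 w UpperHalfPlane.I
  beta_reduce at this
  rw [← this]; ring

theorem prim_tendsto_cusp {N : ℕ} [NeZero N] (f : CuspForm (Gamma0 N) 2) (δ : SL(2, ℤ)) :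
    ∃ L : ℂ, Tendsto (fun w : ℍ => prim f (δ • w)) atImInfty (𝓝 L) := by
  obtain ⟨c, hc⟩ := prim_smul_eq f δ
  refine ⟨c, ?_⟩
  have h1 : Tendsto (prim (⇑f ∣[(2 : ℤ)] δ)) atImInfty (𝓝 0) := (dec_slash f δ).dec_prim.zero
  have h2 := h1.add_const c
  rw [zero_add] at h2
  exact h2.congr fun w => (hc w).symm

theorem hasEquivariantPrimitive_prim (N : ℕ) [NeZero N] (f : CuspForm (Gamma0 N) 2) :
    HasEquivariantPrimitive N f (prim f) := by
  refine ⟨(dec_coe f).hasDerivH_prim, (dec_coe f).dec_prim.zero, ?_, fun δ => prim_tendsto_cusp f δ⟩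
  intro γ
  exact ⟨prim f ((γ : SL(2, ℤ)) • UpperHalfPlane.I) - prim f UpperHalfPlane.I,
    fun z => prim_smul_sub_const f γ.2 z _⟩

/-- Any equivariant primitive (in the sense of the prelude) is the canonical one. -/
theorem eq_prim_of_hasEquivariantPrimitive {N : ℕ} [NeZero N] {f : CuspForm (Gamma0 N) 2}
    {F : ℍ → ℂ} (hF : HasEquivariantPrimitive N f F) : F = prim f :=
  Fermat.Agent.S22.prim_unique (dec_coe f) hF.1 hF.2.1

/-- the period of `f` along `γ`, computed at any base point. -/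
theorem periodMap_apply (N : ℕ) [NeZero N] (f : CuspForm (Gamma0 N) 2) (γ : Gamma0 N) (z : ℍ) :
    periodMap N f (Additive.ofMul γ) = prim f ((γ : SL(2, ℤ)) • z) - prim f z := by
  obtain ⟨F₀, h₀, h⟩ := periodMap_def N f (hasEquivariantPrimitive_prim N f)
  have hF₀ : F₀ = prim f := eq_prim_of_hasEquivariantPrimitive h₀
  subst hF₀
  rw [h, IsEquivariantPrimitive.periodHom_apply, ← h₀.2.2.1.sub_eq_period γ z]

theorem existsPeriodMapLinear (N : ℕ) [NeZero N] : ExistsPeriodMapLinear N := by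
  refine ⟨{ toFun := fun f => periodMap N f, map_add' := ?_, map_smul' := ?_ }, fun f => rfl⟩
  · intro f g
    refine AddMonoidHom.ext fun γ => ?_
    obtain ⟨γ, rfl⟩ := Additive.ofMul.surjective γ
    rw [AddMonoidHom.add_apply, periodMap_apply N _ γ UpperHalfPlane.I,
      periodMap_apply N _ γ UpperHalfPlane.I, periodMap_apply N _ γ UpperHalfPlane.I]
    have : (⇑(f + g) : ℍ → ℂ) = ⇑f + ⇑g := rfl
    rw [this, Fermat.Agent.S22.prim_add (dec_coe f) (dec_coe g)]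
    simp only [Pi.add_apply]; ring
  · intro c f
    refine AddMonoidHom.ext fun γ => ?_
    obtain ⟨γ, rfl⟩ := Additive.ofMul.surjective γ
    rw [RingHom.id_apply, AddMonoidHom.smul_apply, periodMap_apply N _ γ UpperHalfPlane.I,
      periodMap_apply N _ γ UpperHalfPlane.I]
    have : (⇑(c • f) : ℍ → ℂ) = fun τ => c * f τ := rfl
    rw [this, Fermat.Agent.S22.prim_const_mul (dec_coe f)]
    simp only [smul_eq_mul]; ring

/-- A unipotent-trace element of `SL(2, ℤ)` fixes a primitive integer vector. -/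
theorem exists_fixed_vector (M : SL(2, ℤ)) (htr : (M : Matrix (Fin 2) (Fin 2) ℤ).trace = 2) :
    ∃ x y : ℤ, IsCoprime x y ∧ M 0 0 * x + M 0 1 * y = x ∧ M 1 0 * x + M 1 1 * y = y := by
  have hdet : M 0 0 * M 1 1 - M 0 1 * M 1 0 = 1 := by
    have := M.det_coe
    rwa [Matrix.det_fin_two] at this
  have htr' : M 0 0 + M 1 1 = 2 := by
    rwa [Matrix.trace_fin_two] at htr
  by_cases h0 : M 0 1 = 0 ∧ M 0 0 = 1
  · refine ⟨0, 1, isCoprime_zero_left.mpr isUnit_one, ?_, ?_⟩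
    · rw [h0.1]; ring
    · have : M 1 1 = 1 := by linarith [h0.2]
      rw [this]; ring
  · set g : ℤ := (Int.gcd (M 0 1) (1 - M 0 0) : ℤ) with hg
    have hg0 : g ≠ 0 := by
      intro hg0
      rw [hg] at hg0
      have := Int.gcd_eq_zero_iff.mp (by exact_mod_cast hg0)
      exact h0 ⟨this.1, by linarith [this.2]⟩
    obtain ⟨x, hx⟩ : g ∣ M 0 1 := Int.gcd_dvd_left _ _
    obtain ⟨y, hy⟩ : g ∣ 1 - M 0 0 := Int.gcd_dvd_right _ _
    refine ⟨x, y, ?_, ?_, ?_⟩
    · obtain ⟨u, v, huv⟩ : ∃ u v : ℤ, g = M 0 1 * u + (1 - M 0 0) * v :=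
        ⟨_, _, Int.gcd_eq_gcd_ab _ _⟩
      refine ⟨u, v, ?_⟩
      have : g * (u * x + v * y) = g * 1 := by
        linear_combination (-u) * hx + (-v) * hy - huv
      exact mul_left_cancel₀ hg0 this
    · have : g * (M 0 0 * x + M 0 1 * y) = g * x := by
        have e1 : g * x = M 0 1 := hx.symm
        have e2 : g * y = 1 - M 0 0 := hy.symm
        linear_combination (M 0 0 - 1) * e1 + M 0 1 * e2
      exact mul_left_cancel₀ hg0 this
    · have : g * (M 1 0 * x + M 1 1 * y) = g * y := by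
        have e1 : g * x = M 0 1 := hx.symm
        have e2 : g * y = 1 - M 0 0 := hy.symm
        linear_combination M 1 0 * e1 + (M 1 1 - 1) * e2 - hdet + htr'
      exact mul_left_cancel₀ hg0 this


/-- A fixed primitive vector gives a conjugation into the upper unipotent subgroup. -/
theorem exists_conj_T_of_fixed (M : SL(2, ℤ)) (x y : ℤ) (hxy : IsCoprime x y)
    (h1 : M 0 0 * x + M 0 1 * y = x) (h2 : M 1 0 * x + M 1 1 * y = y) :
    ∃ (δ : SL(2, ℤ)) (k : ℤ), M * δ = δ * ModularGroup.T ^ k := by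
  obtain ⟨u, v, huv⟩ := hxy
  set δ : SL(2, ℤ) := ⟨!![x, -v; y, u], by rw [Matrix.det_fin_two_of]; linear_combination huv⟩
    with hδ
  set P : SL(2, ℤ) := δ⁻¹ * M * δ with hP
  have hδc : (δ : Matrix (Fin 2) (Fin 2) ℤ) = !![x, -v; y, u] := rfl
  have hδinv : ((δ⁻¹ : SL(2, ℤ)) : Matrix (Fin 2) (Fin 2) ℤ) = !![u, v; -y, x] := by
    rw [Matrix.SpecialLinearGroup.coe_inv, hδc, Matrix.adjugate_fin_two_of, neg_neg]
  have hPc : (P : Matrix (Fin 2) (Fin 2) ℤ) =
      !![u, v; -y, x] * (M : Matrix (Fin 2) (Fin 2) ℤ) * !![x, -v; y, u] := by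
    rw [hP, Matrix.SpecialLinearGroup.coe_mul, Matrix.SpecialLinearGroup.coe_mul, hδinv, hδc]
  have hP00 : P 0 0 = 1 := by
    rw [hPc]
    simp [Matrix.mul_apply, Fin.sum_univ_two, Matrix.vecMul, dotProduct]
    linear_combination u * h1 + v * h2 + huv
  have hP10 : P 1 0 = 0 := by
    rw [hPc]
    simp [Matrix.mul_apply, Fin.sum_univ_two, Matrix.vecMul, dotProduct]
    linear_combination (-y) * h1 + x * h2
  have hPdet : P 0 0 * P 1 1 - P 0 1 * P 1 0 = 1 := by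
    have := P.det_coe
    rwa [Matrix.det_fin_two] at this
  have hP11 : P 1 1 = 1 := by
    rw [hP00, hP10] at hPdet; linarith
  refine ⟨δ, P 0 1, ?_⟩
  have hPT : P = ModularGroup.T ^ (P 0 1) := by
    apply Subtype.ext
    rw [ModularGroup.coe_T_zpow]
    ext i j
    fin_cases i <;> fin_cases j <;> simp [hP00, hP10, hP11]
  rw [← hPT, hP]
  group

/-- Elements of `SL(2, ℤ)` with `trace ^ 2 = 4` are, up to sign, conjugate to a power of `T`. -/
theorem exists_conj_T_of_trace_sq (γ : SL(2, ℤ))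
    (htr : (γ : Matrix (Fin 2) (Fin 2) ℤ).trace ^ 2 = 4) :
    ∃ (δ : SL(2, ℤ)) (k : ℤ), γ * δ = δ * ModularGroup.T ^ k ∨
      γ * δ = -(δ * ModularGroup.T ^ k) := by
  have h : (γ : Matrix (Fin 2) (Fin 2) ℤ).trace = 2 ∨ (γ : Matrix (Fin 2) (Fin 2) ℤ).trace = -2 := by
    have : ((γ : Matrix (Fin 2) (Fin 2) ℤ).trace - 2) * ((γ : Matrix (Fin 2) (Fin 2) ℤ).trace + 2)
        = 0 := by linear_combination htr
    rcases mul_eq_zero.mp this with h | h
    · left; linarith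
    · right; linarith
  rcases h with h | h
  · obtain ⟨x, y, hxy, h1, h2⟩ := exists_fixed_vector γ h
    obtain ⟨δ, k, hk⟩ := exists_conj_T_of_fixed γ x y hxy h1 h2
    exact ⟨δ, k, Or.inl hk⟩
  · have h' : ((-γ : SL(2, ℤ)) : Matrix (Fin 2) (Fin 2) ℤ).trace = 2 := by
      rw [Matrix.SpecialLinearGroup.coe_neg, Matrix.trace_neg, h]; norm_num
    obtain ⟨x, y, hxy, h1, h2⟩ := exists_fixed_vector (-γ) h'
    obtain ⟨δ, k, hk⟩ := exists_conj_T_of_fixed (-γ) x y hxy h1 h2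
    refine ⟨δ, k, Or.inr ?_⟩
    rw [← hk, neg_mul, neg_neg]


theorem tendsto_vadd_atImInfty (x : ℝ) : Tendsto (fun w : ℍ => x +ᵥ w) atImInfty atImInfty := by
  rw [atImInfty, tendsto_comap_iff]
  have : (UpperHalfPlane.im ∘ fun w : ℍ => x +ᵥ w) = UpperHalfPlane.im := by
    funext w; simp
  rw [this]
  exact tendsto_comap

/-- If `γ ∈ Γ₀(N)` is conjugate, up to sign, to a power of `T`, then its period vanishes. -/
theorem prim_smul_eq_of_conj {N : ℕ} [NeZero N] (f : CuspForm (Gamma0 N) 2) {γ : SL(2, ℤ)}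
    (hγ : γ ∈ Gamma0 N) (δ : SL(2, ℤ)) (k : ℤ)
    (h : γ * δ = δ * ModularGroup.T ^ k ∨ γ * δ = -(δ * ModularGroup.T ^ k)) (z : ℍ) :
    prim f (γ • z) = prim f z := by
  obtain ⟨L, hL⟩ := prim_tendsto_cusp f δ
  have hsm : ∀ w : ℍ, γ • δ • w = δ • (((k : ℤ) : ℝ) +ᵥ w) := by
    intro w
    rw [← mul_smul]
    rcases h with h | h
    · rw [h, mul_smul, modular_T_zpow_smul]
    · rw [h, ModularGroup.SL_neg_smul, mul_smul, modular_T_zpow_smul]
  have key : ∀ w : ℍ, prim f (γ • z) - prim f z =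
      prim f (δ • (((k : ℤ) : ℝ) +ᵥ w)) - prim f (δ • w) := by
    intro w
    rw [prim_smul_sub_const f hγ z (δ • w), hsm]
  have h1 : Tendsto (fun w : ℍ => prim f (δ • (((k : ℤ) : ℝ) +ᵥ w)) - prim f (δ • w)) atImInfty
      (𝓝 (L - L)) :=
    (hL.comp (tendsto_vadd_atImInfty _)).sub hL
  have h2 : Tendsto (fun _ : ℍ => prim f (γ • z) - prim f z) atImInfty (𝓝 (L - L)) :=
    h1.congr fun w => (key w).symm
  have h3 := tendsto_nhds_unique tendsto_const_nhds h2
  rw [sub_self] at h3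
  exact sub_eq_zero.mp h3

theorem periodMap_mem_parabolicHoms (N : ℕ) [NeZero N] (f : CuspForm (Gamma0 N) 2) :
    periodMap N f ∈ parabolicHoms ℂ (Gamma0 N) ℂ := by
  rw [mem_parabolicHoms_iff]
  intro γ hγ
  obtain ⟨δ, k, h⟩ := exists_conj_T_of_trace_sq (γ : SL(2, ℤ)) hγ
  rw [periodMap_apply N f γ UpperHalfPlane.I, prim_smul_eq_of_conj f γ.2 δ k h, sub_self]

/-- at every cusp the primitive is `N`-periodic. -/
theorem prim_smul_vadd (N : ℕ) [NeZero N] (f : CuspForm (Gamma0 N) 2) (δ : SL(2, ℤ)) (w : ℍ) :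
    prim f (δ • ((N : ℝ) +ᵥ w)) = prim f (δ • w) := by
  have hmem : δ * ModularGroup.T ^ (N : ℤ) * δ⁻¹ ∈ Gamma0 N := by
    have h1 : ModularGroup.T ^ (N : ℤ) ∈ Gamma N := by
      simpa using ModularGroup_T_pow_mem_Gamma (N : ℤ) (N : ℤ) dvd_rfl
    have h2 : δ * ModularGroup.T ^ (N : ℤ) * δ⁻¹ ∈ Gamma N :=
      (Gamma_normal (N := N)).conj_mem _ h1 δ
    rw [Gamma0_mem]
    exact (Gamma_mem.mp h2).2.2.1
  have h := prim_smul_eq_of_conj f hmem δ (N : ℤ) (Or.inl (by group)) (δ • w)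
  rw [← h, ← mul_smul, inv_mul_cancel_right, mul_smul, modular_T_zpow_smul]
  simp

end Fermat.Agent.ES
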