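import Mathlib
import Fermat.Prelude.Def_ModularCurve_PeriodHomPair
import Fermat.Prelude.Def_ModularCurve_GenusNumerics
import Fermat.Agent.ES.Prim
import Fermat.Agent.ES.ParabolicDim
import Fermat.Agent.S24.GenusX0

/-!
# TEAM ES (S21), package E4: assembly

* `exists_genus_finrank_parabolicHoms_le` : `dim Hom_par(Γ₀(N), ℂ) ≤ 2 g`, `g = genusFormula N`.
* `range_periodHomPair_le` : the period pairing takes values in the parabolic homomorphisms.
* `finrank_cuspForm_le_of_injective` : injectivity of the period pairing gives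
  `dim S₂(Γ₀(N)) ≤ g` (and finite-dimensionality).
* `eichlerShimura_of_injective` : S21 from injectivity and `dim S₂(Γ₀(N)) = g` (S20).
-/

set_option autoImplicit false

namespace Fermat.Agent.ES

open UpperHalfPlane CongruenceSubgroup ModularCurve ModularCurve.Period Module
open Fermat.Agent.S24 (orbCount X0 cosetPerm)
open scoped MatrixGroups ModularForm

/-- `dim Hom_par(Γ₀(N), ℂ) ≤ 2 g` where `g` is the genus of `X₀(N)`. -/
theorem exists_genus_finrank_parabolicHoms_le (N : ℕ) [NeZero N] :
    ∃ g : ℕ, (g : ℚ) = genusFormula N ∧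
      finrank ℂ (parabolicHoms ℂ (Gamma0 N) ℂ) ≤ 2 * g := by
  obtain ⟨g, hg, hgf⟩ := Fermat.Agent.S24.exists_genus N
  refine ⟨g, hgf, finrank_parabolicHoms_le_two_mul N g ?_⟩
  rw [Fermat.Agent.S24.card_X0 N]
  exact hg

/-- The period pairing takes values in the parabolic homomorphisms. -/
theorem range_periodHomPair_le (N : ℕ) [NeZero N] :
    LinearMap.range (periodHomPair N) ≤ parabolicHoms ℂ (Gamma0 N) ℂ := by
  obtain ⟨pml, hpml, h⟩ := periodHomPair_def N (existsPeriodMapLinear N)
  rintro _ ⟨⟨f, g⟩, rfl⟩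
  have hf : pml f ∈ parabolicHoms ℂ (Gamma0 N) ℂ := by
    rw [hpml]; exact periodMap_mem_parabolicHoms N f
  have hg : pml g ∈ parabolicHoms ℂ (Gamma0 N) ℂ := by
    rw [hpml]; exact periodMap_mem_parabolicHoms N g
  rw [h]
  simp only [LinearMap.coprod_apply, LinearMap.comp_apply, LinearMap.add_apply,
    LinearMap.sub_apply, LinearMap.id_apply]
  exact Submodule.add_mem _
    (Submodule.add_mem _ hf (charInvolution_mem_parabolicHoms N ℂ ℂ hf))
    (Submodule.sub_mem _ hg (charInvolution_mem_parabolicHoms N ℂ ℂ hg))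

/-- The period pairing, with codomain restricted to the parabolic homomorphisms. -/
noncomputable def periodHomPairPar (N : ℕ) [NeZero N] :
    (CuspForm (Gamma0 N) 2 × CuspForm (Gamma0 N) 2) →ₗ[ℂ] parabolicHoms ℂ (Gamma0 N) ℂ :=
  LinearMap.codRestrict _ (periodHomPair N) fun p =>
    range_periodHomPair_le N (LinearMap.mem_range_self _ p)

theorem periodHomPairPar_injective (N : ℕ) [NeZero N]
    (hinj : Function.Injective (periodHomPair N)) : Function.Injective (periodHomPairPar N) := by
  intro p q h
  exact hinj (congrArg Subtype.val h)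

/-- Injectivity of the period pairing bounds the dimension of `S₂(Γ₀(N))` by the genus: this is
the upper bound in S20, obtained without Riemann–Roch. -/
theorem finrank_cuspForm_le_of_injective (N : ℕ) [NeZero N]
    (hinj : Function.Injective (periodHomPair N)) :
    Module.Finite ℂ (CuspForm (Gamma0 N) 2) ∧
      ∃ g : ℕ, (g : ℚ) = genusFormula N ∧ finrank ℂ (CuspForm (Gamma0 N) 2) ≤ g := by
  have : FiniteDimensional ℂ (parabolicHoms ℂ (Gamma0 N) ℂ) := finiteDimensional_parabolicHoms N
  have hinj' := periodHomPairPar_injective N hinj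
  have hfin2 : Module.Finite ℂ (CuspForm (Gamma0 N) 2 × CuspForm (Gamma0 N) 2) :=
    Module.Finite.of_injective (periodHomPairPar N) hinj'
  have hfin : Module.Finite ℂ (CuspForm (Gamma0 N) 2) :=
    Module.Finite.of_surjective (LinearMap.fst ℂ (CuspForm (Gamma0 N) 2) (CuspForm (Gamma0 N) 2))
      LinearMap.fst_surjective
  refine ⟨hfin, ?_⟩
  obtain ⟨g, hg, hle⟩ := exists_genus_finrank_parabolicHoms_le N
  refine ⟨g, hg, ?_⟩
  have h1 := LinearMap.finrank_le_finrank_of_injective hinj'
  rw [Module.finrank_prod] at h1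
  omega

/-- **Eichler–Shimura** (S21), from the injectivity of the period pairing and the dimension
formula `dim S₂(Γ₀(N)) = g` (S20). -/
theorem eichlerShimura_of_injective (N : ℕ) [NeZero N]
    (hinj : Function.Injective (periodHomPair N))
    (hS20 : (finrank ℂ (CuspForm (Gamma0 N) 2) : ℚ) = genusFormula N) :
    Function.Injective (periodHomPair N) ∧
      LinearMap.range (periodHomPair N) = parabolicHoms ℂ (Gamma0 N) ℂ := by
  refine ⟨hinj, ?_⟩
  have : FiniteDimensional ℂ (parabolicHoms ℂ (Gamma0 N) ℂ) := finiteDimensional_parabolicHoms N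
  obtain ⟨hfin, -⟩ := finrank_cuspForm_le_of_injective N hinj
  obtain ⟨g, hg, hle⟩ := exists_genus_finrank_parabolicHoms_le N
  have hgS : finrank ℂ (CuspForm (Gamma0 N) 2) = g := by
    have : (finrank ℂ (CuspForm (Gamma0 N) 2) : ℚ) = (g : ℚ) := by rw [hS20, hg]
    exact_mod_cast this
  refine Submodule.eq_of_le_of_finrank_le (range_periodHomPair_le N) ?_
  rw [LinearMap.finrank_range_of_inj hinj, Module.finrank_prod, hgS]
  omega

end Fermat.Agent.ES
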