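import Mathlib
import Fermat.Prelude.Def_ModularCurve_PeriodMapBundled
import Fermat.Prelude.Thm_Subgroup_IsArithmetic_exists_nat_mem_strictPeriods_conj
import Fermat.Prelude.Thm_CongruenceSubgroup_one_mem_strictPeriods_Gamma0

set_option autoImplicit false

open UpperHalfPlane Filter Topology
open scoped MatrixGroups ModularForm Manifold

namespace Fermat.Agent.ES

namespace Primitive

/-- A holomorphic `h`-periodic function on `ℍ` vanishing at `i∞` has a primitive on `ℍ`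
vanishing at `i∞`. -/
theorem exists_primitive_of_periodic {g : ℍ → ℂ} {h : ℝ} (hh : 0 < h)
    (hper : Function.Periodic (g ∘ ofComplex) h) (hhol : MDifferentiable 𝓘(ℂ) 𝓘(ℂ) g)
    (hzero : IsZeroAtImInfty g) :
    ∃ G : ℍ → ℂ, (∀ τ : ℍ, HasDerivAt (G ∘ ofComplex) (g τ) ↑τ) ∧
      Tendsto G atImInfty (𝓝 0) := by
  set φ := UpperHalfPlane.cuspFunction h g with hφ
  have hφd : DifferentiableOn ℂ φ (Metric.ball 0 1) :=
    differentiableOn_cuspFunction_ball hh hper hhol hzero.isBoundedAtImInfty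
  have hφ0 : φ 0 = 0 := hzero.cuspFunction_apply_zero hh
  have hψd : DifferentiableOn ℂ (dslope φ 0) (Metric.ball 0 1) :=
    (Complex.differentiableOn_dslope (Metric.ball_mem_nhds 0 one_pos)).mpr hφd
  obtain ⟨Φ, hΦ⟩ := hψd.isExactOn_ball
  refine ⟨fun τ => (h / (2 * Real.pi * Complex.I)) *
    (Φ (Function.Periodic.qParam h τ) - Φ 0), ?_, ?_⟩
  · intro τ
    have hq : ‖Function.Periodic.qParam h (τ : ℂ)‖ < 1 :=
      Function.Periodic.norm_qParam_lt_one hh τ.im_pos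
    have hq0 : Function.Periodic.qParam h (τ : ℂ) ≠ 0 := Function.Periodic.qParam_ne_zero _
    have h1 : HasDerivAt (Function.Periodic.qParam h)
        (Function.Periodic.qParam h τ * (2 * Real.pi * Complex.I / h)) (τ : ℂ) := by
      simpa only [id_eq, mul_one] using!
        (((hasDerivAt_id (τ : ℂ)).const_mul (2 * Real.pi * Complex.I)).div_const (h : ℂ)).cexp
    have h2 := (hΦ _ (mem_ball_zero_iff.mpr hq)).comp (τ : ℂ) h1
    have h3 : HasDerivAt (fun w : ℂ => (h / (2 * Real.pi * Complex.I)) *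
        (Φ (Function.Periodic.qParam h w) - Φ 0)) (g τ) τ := by
      have h4 := (h2.sub_const (Φ 0)).const_mul ((h : ℂ) / (2 * Real.pi * Complex.I))
      have e : (h : ℂ) / (2 * Real.pi * Complex.I) *
          (dslope φ 0 (Function.Periodic.qParam h τ) *
            (Function.Periodic.qParam h τ * (2 * Real.pi * Complex.I / h))) = g τ := by
        rw [dslope_of_ne _ hq0, slope_def_field, hφ0, sub_zero, sub_zero, hφ,
          UpperHalfPlane.eq_cuspFunction τ hh.ne' hper]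
        have hh' : (h : ℂ) ≠ 0 := by exact_mod_cast hh.ne'
        have hpi : (2 * Real.pi * Complex.I : ℂ) ≠ 0 := Complex.two_pi_I_ne_zero
        field_simp
      rw [e] at h4
      exact h4
    refine h3.congr_of_eventuallyEq ?_
    filter_upwards [isOpen_upperHalfPlaneSet.mem_nhds τ.im_pos] with w hw
    simp [Function.comp, ofComplex_apply_of_im_pos hw]
  · have hc : ContinuousAt Φ 0 := (hΦ 0 (Metric.mem_ball_self one_pos)).continuousAt
    have h1 : Tendsto (fun τ : ℍ => Φ (Function.Periodic.qParam h τ)) atImInfty (𝓝 (Φ 0)) :=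
      hc.tendsto.comp (qParam_tendsto_atImInfty hh)
    have h2 := (h1.sub_const (Φ 0)).const_mul ((h : ℂ) / (2 * Real.pi * Complex.I))
    simpa using h2

/-- Chain rule for a primitive along the Möbius action of `SL(2, ℤ)`: if `F` is a primitive
of `f` on `ℍ`, then `F ∘ δ` is a primitive of `f ∣[2] δ`. -/
theorem hasDerivAt_comp_smul {F f : ℍ → ℂ}
    (hF : ∀ τ : ℍ, HasDerivAt (F ∘ ofComplex) (f τ) ↑τ) (δ : SL(2, ℤ)) (τ : ℍ) :
    HasDerivAt (fun w : ℂ => F (δ • ofComplex w)) ((f ∣[(2 : ℤ)] δ) τ) ↑τ := by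
  have hdet : ((δ 0 0 : ℤ) : ℂ) * ((δ 1 1 : ℤ) : ℂ) - ((δ 0 1 : ℤ) : ℂ) * ((δ 1 0 : ℤ) : ℂ) = 1 := by
    have h := δ.det_coe
    rw [Matrix.det_fin_two] at h
    exact_mod_cast h
  let m : ℂ → ℂ := fun w => (((δ 0 0 : ℤ) : ℂ) * w + ((δ 0 1 : ℤ) : ℂ)) /
    (((δ 1 0 : ℤ) : ℂ) * w + ((δ 1 1 : ℤ) : ℂ))
  have hden : denom δ τ = ((δ 1 0 : ℤ) : ℂ) * τ + ((δ 1 1 : ℤ) : ℂ) := by
    simp [denom]
  have hden0 : ((δ 1 0 : ℤ) : ℂ) * τ + ((δ 1 1 : ℤ) : ℂ) ≠ 0 := hden ▸ denom_ne_zero δ τ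
  have hm : HasDerivAt m (1 / (((δ 1 0 : ℤ) : ℂ) * τ + ((δ 1 1 : ℤ) : ℂ)) ^ 2) τ := by
    have hn : HasDerivAt (fun w : ℂ => ((δ 0 0 : ℤ) : ℂ) * w + ((δ 0 1 : ℤ) : ℂ))
        ((δ 0 0 : ℤ) : ℂ) τ := by
      simpa using ((hasDerivAt_id (τ : ℂ)).const_mul ((δ 0 0 : ℤ) : ℂ)).add_const
        ((δ 0 1 : ℤ) : ℂ)
    have hd : HasDerivAt (fun w : ℂ => ((δ 1 0 : ℤ) : ℂ) * w + ((δ 1 1 : ℤ) : ℂ))
        ((δ 1 0 : ℤ) : ℂ) τ := by
      simpa using ((hasDerivAt_id (τ : ℂ)).const_mul ((δ 1 0 : ℤ) : ℂ)).add_const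
        ((δ 1 1 : ℤ) : ℂ)
    have h := hn.div hd hden0
    have e : (((δ 0 0 : ℤ) : ℂ) * (((δ 1 0 : ℤ) : ℂ) * τ + ((δ 1 1 : ℤ) : ℂ)) -
        (((δ 0 0 : ℤ) : ℂ) * τ + ((δ 0 1 : ℤ) : ℂ)) * ((δ 1 0 : ℤ) : ℂ)) /
        (((δ 1 0 : ℤ) : ℂ) * τ + ((δ 1 1 : ℤ) : ℂ)) ^ 2 =
        1 / (((δ 1 0 : ℤ) : ℂ) * τ + ((δ 1 1 : ℤ) : ℂ)) ^ 2 := by
      congr 1
      linear_combination hdet
    rw [e] at h
    exact h
  have hmτ : m τ = ((δ • τ : ℍ) : ℂ) := by
    rw [coe_specialLinearGroup_apply]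
    simp [m]
  have hcomp : HasDerivAt ((F ∘ ofComplex) ∘ m)
      (f (δ • τ) * (1 / (((δ 1 0 : ℤ) : ℂ) * τ + ((δ 1 1 : ℤ) : ℂ)) ^ 2)) τ := by
    have h := hF (δ • τ)
    rw [← hmτ] at h
    exact h.comp (τ : ℂ) hm
  have hval : (f ∣[(2 : ℤ)] δ) τ =
      f (δ • τ) * (1 / (((δ 1 0 : ℤ) : ℂ) * τ + ((δ 1 1 : ℤ) : ℂ)) ^ 2) := by
    rw [ModularForm.SL_slash_apply, hden, zpow_neg, one_div]
    norm_cast
  rw [hval]
  refine hcomp.congr_of_eventuallyEq ?_
  filter_upwards [isOpen_upperHalfPlaneSet.mem_nhds τ.im_pos] with w hw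
  show F (δ • ofComplex w) = F (ofComplex (m w))
  congr 1
  have h1 : ofComplex w = ⟨w, hw⟩ := ofComplex_apply_of_im_pos hw
  have h2 : m w = ((δ • (⟨w, hw⟩ : ℍ) : ℍ) : ℂ) := by
    rw [coe_specialLinearGroup_apply]
    simp [m]
  rw [h1, h2, ofComplex_apply]

/-- A function with vanishing derivative at every point of the open upper half plane is
constant there. -/
theorem const_of_hasDerivAt_zero {D : ℂ → ℂ} (hD : ∀ τ : ℍ, HasDerivAt D 0 ↑τ) (z w : ℍ) :
    D z = D w := by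
  have hs : IsOpen {z : ℂ | 0 < z.im} := isOpen_upperHalfPlaneSet
  have hc : IsPreconnected {z : ℂ | 0 < z.im} := (convex_halfSpace_im_gt 0).isPreconnected
  refine hs.is_const_of_deriv_eq_zero hc (fun x hx => ?_) (fun x hx => ?_) z.im_pos w.im_pos
  · exact (hD ⟨x, hx⟩).differentiableAt.differentiableWithinAt
  · exact (hD ⟨x, hx⟩).deriv

end Primitive

/-- **ES/E1-exist.** Every weight-2 cusp form on `Γ₀(N)` has an equivariant primitive in the
sense of the prelude. -/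
theorem exists_hasEquivariantPrimitive (N : ℕ) [NeZero N]
    (f : CuspForm (CongruenceSubgroup.Gamma0 N) 2) :
    ∃ F : ℍ → ℂ, ModularCurve.HasEquivariantPrimitive N f F := by
  obtain ⟨F, hF, hF0⟩ := Primitive.exists_primitive_of_periodic (g := f) (h := 1) one_pos
    (SlashInvariantFormClass.periodic_comp_ofComplex f
      (CongruenceSubgroup.one_mem_strictPeriods_Gamma0 N))
    (CuspFormClass.holo f) (CuspFormClass.zero_at_infty f)
  refine ⟨F, hF, hF0, ?_, ?_⟩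
  · intro γ
    refine ⟨F ((γ : SL(2, ℤ)) • UpperHalfPlane.I) - F UpperHalfPlane.I, fun z => ?_⟩
    have hD : ∀ τ : ℍ, HasDerivAt
        (fun w : ℂ => F ((γ : SL(2, ℤ)) • ofComplex w) - (F ∘ ofComplex) w) 0 ↑τ := by
      intro τ
      have h1 := Primitive.hasDerivAt_comp_smul hF (γ : SL(2, ℤ)) τ
      have h2 : (⇑f ∣[(2 : ℤ)] (γ : SL(2, ℤ))) = f :=
        SlashInvariantForm.slash_action_eqn f _ (Subgroup.mem_map_of_mem _ γ.2)
      rw [h2] at h1
      have h3 := h1.sub (hF τ)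
      rw [sub_self] at h3
      exact h3
    have h := Primitive.const_of_hasDerivAt_zero hD z UpperHalfPlane.I
    simp only [Function.comp_apply, ofComplex_apply] at h
    exact h
  · intro δ
    obtain ⟨M, hM, hMper⟩ := Subgroup.IsArithmetic.exists_nat_mem_strictPeriods_conj
      ((CongruenceSubgroup.Gamma0 N : Subgroup SL(2, ℤ)) : Subgroup (GL (Fin 2) ℝ))
    have hper : Function.Periodic ((⇑f ∣[(2 : ℤ)] δ) ∘ ofComplex) (M : ℝ) := by
      have h := SlashInvariantFormClass.periodic_comp_ofComplex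
        (CuspForm.translate f (Matrix.SpecialLinearGroup.mapGL ℝ δ)) (h := M)
        (by simpa using hMper δ⁻¹)
      exact h
    have hhol : MDifferentiable 𝓘(ℂ) 𝓘(ℂ) (⇑f ∣[(2 : ℤ)] δ) :=
      (CuspFormClass.holo f).slash 2 (Matrix.SpecialLinearGroup.mapGL ℝ δ)
    have hzero : IsZeroAtImInfty (⇑f ∣[(2 : ℤ)] δ) := CuspFormClass.zero_at_infty_slash f δ
    obtain ⟨G, hG, hG0⟩ := Primitive.exists_primitive_of_periodic (Nat.cast_pos.mpr hM) hper
      hhol hzero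
    have hD : ∀ τ : ℍ, HasDerivAt
        (fun w : ℂ => F (δ • ofComplex w) - (G ∘ ofComplex) w) 0 ↑τ := by
      intro τ
      have h3 := (Primitive.hasDerivAt_comp_smul hF δ τ).sub (hG τ)
      rw [sub_self] at h3
      exact h3
    refine ⟨F (δ • UpperHalfPlane.I) - G UpperHalfPlane.I, ?_⟩
    have heq : ∀ w : ℍ, F (δ • w) = (F (δ • UpperHalfPlane.I) - G UpperHalfPlane.I) + G w := by
      intro w
      have h := Primitive.const_of_hasDerivAt_zero hD w UpperHalfPlane.I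
      simp only [Function.comp_apply, ofComplex_apply] at h
      linear_combination h
    refine Tendsto.congr (fun w => (heq w).symm) ?_
    simpa using hG0.const_add (F (δ • UpperHalfPlane.I) - G UpperHalfPlane.I)

end Fermat.Agent.ES
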