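/-
ES (Eichler–Shimura, S21), package E2: injectivity of `ModularCurve.periodHomPair`.

Main export: `Fermat.Agent.ES.periodHomPair_injective`.
Everything else lives in the namespace `Fermat.Agent.ES.Injective` and is formal from the prelude
structure `ModularCurve.HasEquivariantPrimitive`: uniqueness of primitives, linearity of the
period map, parabolicity of periods, the maximum principle on the compactified modular curve
and the reflection `z ↦ -conj z`.
-/
import Mathlib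
import Fermat.Prelude.Def_ModularCurve_PeriodHomPair
import Fermat.Agent.ES.Primitive

set_option autoImplicit false

open UpperHalfPlane CongruenceSubgroup ModularCurve ModularCurve.Period Filter Topology
open scoped MatrixGroups Manifold ComplexConjugate

namespace Fermat.Agent.ES

namespace Injective


/-- A function on `ℍ` with vanishing derivative is constant. -/
theorem const_of_hasDerivAt_zero {G : ℍ → ℂ}
    (h : ∀ τ : ℍ, HasDerivAt (G ∘ ofComplex) 0 ↑τ) (z w : ℍ) : G z = G w := by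
  have hconv : Convex ℝ {z : ℂ | 0 < z.im} := convex_halfSpace_im_gt 0
  have hopen : IsOpen {z : ℂ | 0 < z.im} := isOpen_lt continuous_const Complex.continuous_im
  have hd : DifferentiableOn ℂ (G ∘ ofComplex) {z : ℂ | 0 < z.im} := fun x hx =>
    (h ⟨x, hx⟩).differentiableAt.differentiableWithinAt
  have h0 : ∀ x ∈ {z : ℂ | 0 < z.im}, fderivWithin ℂ (G ∘ ofComplex) {z : ℂ | 0 < z.im} x = 0 := by
    intro x hx
    rw [fderivWithin_of_isOpen hopen hx]
    have := (h ⟨x, hx⟩).hasFDerivAt.fderiv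
    rw [this]
    ext
    simp
  have := hconv.is_const_of_fderivWithin_eq_zero hd h0 z.2 w.2
  simpa [ofComplex_apply] using this

theorem exists_SL2Z (a b c d : ℤ) (h : a * d - b * c = 1) :
    ∃ g : SL(2, ℤ), g 0 0 = a ∧ g 0 1 = b ∧ g 1 0 = c ∧ g 1 1 = d :=
  ⟨⟨!![a, b; c, d], by rw [Matrix.det_fin_two_of]; exact h⟩, rfl, rfl, rfl, rfl⟩

/-- A primitive fixed vector of a trace-2 matrix in `SL(2, ℤ)`. -/
theorem exists_fixed_vector (a b c d : ℤ) (hdet : a * d - b * c = 1) (htr : a + d = 2) :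
    ∃ x y : ℤ, IsCoprime x y ∧ a * x + b * y = x ∧ c * x + d * y = y := by
  by_cases hc : c = 0
  · subst hc
    have ha : a = 1 := by nlinarith [sq_nonneg (a - 1)]
    exact ⟨1, 0, isCoprime_one_left, by simp [ha], by simp⟩
  · obtain ⟨x, hx⟩ : (Int.gcd (a - 1) c : ℤ) ∣ a - 1 := Int.gcd_dvd_left _ _
    obtain ⟨y, hy⟩ : (Int.gcd (a - 1) c : ℤ) ∣ c := Int.gcd_dvd_right _ _
    set g₀ : ℤ := (Int.gcd (a - 1) c : ℤ) with hg₀
    have hg₀ne : g₀ ≠ 0 := by
      rw [hg₀]
      exact_mod_cast (Int.gcd_pos_of_ne_zero_right _ hc).ne'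
    have hcop : IsCoprime x y := by
      rw [Int.isCoprime_iff_gcd_eq_one]
      have h1 : Int.gcd (a - 1) c = Int.natAbs g₀ * Int.gcd x y := by
        conv_lhs => rw [hx, hy]
        exact Int.gcd_mul_left _ _ _
      have h2 : Int.natAbs g₀ = Int.gcd (a - 1) c := by
        rw [hg₀]; exact Int.natAbs_natCast _
      rw [h2] at h1
      have hpos : 0 < Int.gcd (a - 1) c := Int.gcd_pos_of_ne_zero_right _ hc
      have : Int.gcd (a - 1) c * 1 = Int.gcd (a - 1) c * Int.gcd x y := by rw [mul_one]; exact h1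
      exact (Nat.eq_of_mul_eq_mul_left hpos this).symm
    refine ⟨x, y, hcop, ?_, ?_⟩
    · have h : g₀ * (a * x + b * y) = g₀ * x := by
        have e1 : g₀ * x = a - 1 := hx.symm
        have e2 : g₀ * y = c := hy.symm
        have : g₀ * (a * x + b * y) = a * (g₀ * x) + b * (g₀ * y) := by ring
        rw [this, e1, e2]
        linear_combination (-1 : ℤ) * hdet + a * htr
      exact mul_left_cancel₀ hg₀ne h
    · have e1 : g₀ * x = a - 1 := hx.symm
      have e2 : g₀ * y = c := hy.symm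
      rw [← e2]
      have : g₀ * y * x + d * y = y * (g₀ * x + d) := by ring
      rw [this, e1]
      have : a - 1 + d = 1 := by linarith
      rw [this, mul_one]

/-- A trace-2 element of `SL(2, ℤ)` is conjugate to a power of `T`. -/
theorem exists_conj_eq_T_zpow (γ : SL(2, ℤ)) (htr : γ 0 0 + γ 1 1 = 2) :
    ∃ (g : SL(2, ℤ)) (m : ℤ), g * γ * g⁻¹ = ModularGroup.T ^ m := by
  have hdet : γ 0 0 * γ 1 1 - γ 0 1 * γ 1 0 = 1 := by
    have := γ.det_coe
    rw [Matrix.det_fin_two] at this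
    exact this
  obtain ⟨x, y, ⟨u, v, huv⟩, h1, h2⟩ := exists_fixed_vector _ _ _ _ hdet htr
  obtain ⟨g, g00, g01, g10, g11⟩ := exists_SL2Z u v (-y) x (by linarith)
  refine ⟨g, (g * γ * g⁻¹) 0 1, ?_⟩
  have hM := (g * γ * g⁻¹).det_coe
  rw [Matrix.det_fin_two] at hM
  have e00 : (g * γ * g⁻¹) 0 0 = 1 := by
    simp only [Matrix.SpecialLinearGroup.coe_mul, Matrix.mul_apply, Fin.sum_univ_two,
      Matrix.SpecialLinearGroup.coe_inv, Matrix.adjugate_fin_two, Matrix.of_apply,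
      Matrix.cons_val', Matrix.cons_val_zero, Matrix.cons_val_one, g00, g01, g10, g11]
    linear_combination u * h1 + v * h2 + huv
  have e10 : (g * γ * g⁻¹) 1 0 = 0 := by
    simp only [Matrix.SpecialLinearGroup.coe_mul, Matrix.mul_apply, Fin.sum_univ_two,
      Matrix.SpecialLinearGroup.coe_inv, Matrix.adjugate_fin_two, Matrix.of_apply,
      Matrix.cons_val', Matrix.cons_val_zero, Matrix.cons_val_one, g00, g01, g10, g11]
    linear_combination (-y) * h1 + x * h2
  have e11 : (g * γ * g⁻¹) 1 1 = 1 := by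
    rw [e00, e10] at hM
    linarith
  apply Subtype.ext
  rw [ModularGroup.coe_T_zpow]
  ext i j
  fin_cases i <;> fin_cases j
  · exact e00
  · rfl
  · exact e10
  · exact e11

/-- An element of `SL(2, ℤ)` of trace `±2` acts on `ℍ` as a conjugate of a translation. -/
theorem exists_smul_conj (γ : SL(2, ℤ))
    (h : (γ : Matrix (Fin 2) (Fin 2) ℤ).trace ^ 2 = 4) :
    ∃ (δ : SL(2, ℤ)) (m : ℤ), ∀ w : ℍ, γ • (δ • w) = δ • (ModularGroup.T ^ m • w) := by
  rw [Matrix.trace_fin_two] at h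
  have h' : γ 0 0 + γ 1 1 = 2 ∨ γ 0 0 + γ 1 1 = -2 := by
    have : (γ 0 0 + γ 1 1 - 2) * (γ 0 0 + γ 1 1 + 2) = 0 := by linear_combination h
    rcases mul_eq_zero.1 this with h1 | h1
    · left; linarith
    · right; linarith
  rcases h' with h' | h'
  · obtain ⟨g, m, hg⟩ := exists_conj_eq_T_zpow γ h'
    refine ⟨g⁻¹, m, fun w => ?_⟩
    have e : γ * g⁻¹ = g⁻¹ * ModularGroup.T ^ m := by
      rw [← hg]; group
    rw [← mul_smul, e, mul_smul]
  · have h'' : (-γ) 0 0 + (-γ) 1 1 = 2 := by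
      rw [Matrix.SpecialLinearGroup.coe_neg, Matrix.neg_apply, Matrix.neg_apply]
      linarith
    obtain ⟨g, m, hg⟩ := exists_conj_eq_T_zpow (-γ) h''
    refine ⟨g⁻¹, m, fun w => ?_⟩
    have e : -γ * g⁻¹ = g⁻¹ * ModularGroup.T ^ m := by
      rw [← hg]; group
    rw [← ModularGroup.SL_neg_smul γ, ← mul_smul, e, mul_smul]

theorem tendsto_T_zpow_smul (m : ℤ) :
    Tendsto (fun w : ℍ => ModularGroup.T ^ m • w) atImInfty atImInfty := by
  rw [atImInfty, tendsto_comap_iff]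
  have : (UpperHalfPlane.im ∘ fun w : ℍ => ModularGroup.T ^ m • w) = UpperHalfPlane.im := by
    funext w
    rw [Function.comp_apply, UpperHalfPlane.modular_T_zpow_smul, UpperHalfPlane.vadd_im]
  rw [this]
  exact tendsto_comap



/-- Uniqueness of the equivariant primitive of a cusp form. -/
theorem hasEquivariantPrimitive_unique {N : ℕ} {f : CuspForm (Gamma0 N) 2} {F₁ F₂ : ℍ → ℂ}
    (h₁ : HasEquivariantPrimitive N f F₁) (h₂ : HasEquivariantPrimitive N f F₂) : F₁ = F₂ := by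
  have hD : ∀ τ : ℍ, HasDerivAt ((fun z => F₁ z - F₂ z) ∘ ofComplex) 0 ↑τ := by
    intro τ
    have := (h₁.1 τ).sub (h₂.1 τ)
    rw [sub_self] at this
    exact this
  have hconst := const_of_hasDerivAt_zero hD
  have hlim : Tendsto (fun z => F₁ z - F₂ z) atImInfty (𝓝 (0 - 0)) := h₁.2.1.sub h₂.2.1
  have hlim2 : Tendsto (fun z => F₁ z - F₂ z) atImInfty (𝓝 (F₁ I - F₂ I)) := by
    have : (fun z => F₁ z - F₂ z) = fun _ => F₁ I - F₂ I := funext fun z => hconst z I
    rw [this]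
    exact tendsto_const_nhds
  have h0 : F₁ I - F₂ I = 0 - 0 := tendsto_nhds_unique hlim2 hlim
  funext z
  have := hconst z I
  rw [h0] at this
  simpa [sub_eq_zero] using this

/-- The period map is the period homomorphism of any equivariant primitive. -/
theorem periodMap_eq {N : ℕ} {f : CuspForm (Gamma0 N) 2} {F : ℍ → ℂ}
    (hF : HasEquivariantPrimitive N f F) : periodMap N f = hF.2.2.1.periodHom := by
  obtain ⟨F₀, h₀, h⟩ := periodMap_def N f hF
  obtain rfl : F₀ = F := hasEquivariantPrimitive_unique h₀ hF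
  exact h

theorem periodMap_apply {N : ℕ} {f : CuspForm (Gamma0 N) 2} {F : ℍ → ℂ}
    (hF : HasEquivariantPrimitive N f F) (γ : Gamma0 N) :
    periodMap N f (Additive.ofMul γ) = F ((γ : SL(2, ℤ)) • UpperHalfPlane.I) - F UpperHalfPlane.I := by
  rw [periodMap_eq hF]
  rfl

theorem HasEquivariantPrimitive.add {N : ℕ} {f g : CuspForm (Gamma0 N) 2} {F G : ℍ → ℂ}
    (hF : HasEquivariantPrimitive N f F) (hG : HasEquivariantPrimitive N g G) :
    HasEquivariantPrimitive N (f + g) (fun z => F z + G z) := by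
  refine ⟨fun τ => ?_, ?_, fun γ => ?_, fun δ => ?_⟩
  · exact (hF.1 τ).add (hG.1 τ)
  · simpa using hF.2.1.add hG.2.1
  · obtain ⟨c₁, h₁⟩ := hF.2.2.1 γ
    obtain ⟨c₂, h₂⟩ := hG.2.2.1 γ
    refine ⟨c₁ + c₂, fun z => ?_⟩
    rw [← h₁ z, ← h₂ z]
    ring
  · obtain ⟨L₁, h₁⟩ := hF.2.2.2 δ
    obtain ⟨L₂, h₂⟩ := hG.2.2.2 δ
    exact ⟨L₁ + L₂, h₁.add h₂⟩

theorem HasEquivariantPrimitive.smul {N : ℕ} {f : CuspForm (Gamma0 N) 2} {F : ℍ → ℂ}
    (hF : HasEquivariantPrimitive N f F) (c : ℂ) :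
    HasEquivariantPrimitive N (c • f) (fun z => c * F z) := by
  refine ⟨fun τ => ?_, ?_, fun γ => ?_, fun δ => ?_⟩
  · exact (hF.1 τ).const_mul c
  · simpa using hF.2.1.const_mul c
  · obtain ⟨c₁, h₁⟩ := hF.2.2.1 γ
    refine ⟨c * c₁, fun z => ?_⟩
    rw [← h₁ z]
    ring
  · obtain ⟨L₁, h₁⟩ := hF.2.2.2 δ
    exact ⟨c * L₁, h₁.const_mul c⟩

/-- If every cusp form has an equivariant primitive, the period map is linear. -/
theorem existsPeriodMapLinear_of_exists (N : ℕ)
    (hex : ∀ f : CuspForm (Gamma0 N) 2, ∃ F : ℍ → ℂ, HasEquivariantPrimitive N f F) :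
    ExistsPeriodMapLinear N := by
  refine ⟨{ toFun := fun f => periodMap N f, map_add' := ?_, map_smul' := ?_ }, fun f => rfl⟩
  · intro f g
    obtain ⟨F, hF⟩ := hex f
    obtain ⟨G, hG⟩ := hex g
    refine AddMonoidHom.ext fun γ => ?_
    obtain ⟨γ, rfl⟩ : ∃ γ' : Gamma0 N, Additive.ofMul γ' = γ := ⟨Additive.toMul γ, rfl⟩
    rw [AddMonoidHom.add_apply, periodMap_apply (HasEquivariantPrimitive.add hF hG), periodMap_apply hF,
      periodMap_apply hG]
    ring
  · intro c f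
    obtain ⟨F, hF⟩ := hex f
    refine AddMonoidHom.ext fun γ => ?_
    obtain ⟨γ, rfl⟩ : ∃ γ' : Gamma0 N, Additive.ofMul γ' = γ := ⟨Additive.toMul γ, rfl⟩
    rw [RingHom.id_apply, AddMonoidHom.smul_apply, periodMap_apply (HasEquivariantPrimitive.smul hF c),
      periodMap_apply hF, smul_eq_mul]
    ring

/-- Periods of elements of trace `±2` vanish. -/
theorem period_eq_zero_of_trace {N : ℕ} {f : CuspForm (Gamma0 N) 2} {F : ℍ → ℂ}
    (hF : HasEquivariantPrimitive N f F) (γ : Gamma0 N)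
    (hγ : ((γ : SL(2, ℤ)) : Matrix (Fin 2) (Fin 2) ℤ).trace ^ 2 = 4) :
    hF.2.2.1.period γ = 0 := by
  obtain ⟨δ, m, h⟩ := exists_smul_conj (γ : SL(2, ℤ)) hγ
  obtain ⟨L, hL⟩ := hF.2.2.2 δ
  have e : ∀ w : ℍ, F (δ • (ModularGroup.T ^ m • w)) - F (δ • w) = hF.2.2.1.period γ := by
    intro w
    rw [← h w]
    exact hF.2.2.1.sub_eq_period γ (δ • w)
  have h1 : Tendsto (fun w : ℍ => F (δ • (ModularGroup.T ^ m • w)) - F (δ • w)) atImInfty
      (𝓝 (L - L)) := (hL.comp (tendsto_T_zpow_smul m)).sub hL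
  have h2 : Tendsto (fun w : ℍ => F (δ • (ModularGroup.T ^ m • w)) - F (δ • w)) atImInfty
      (𝓝 (hF.2.2.1.period γ)) := by
    rw [funext e]
    exact tendsto_const_nhds
  rw [tendsto_nhds_unique h2 h1, sub_self]

theorem periodMap_mem_parabolicHoms (N : ℕ) (f : CuspForm (Gamma0 N) 2) :
    periodMap N f ∈ parabolicHoms ℂ (Gamma0 N) ℂ := by
  by_cases hex : ∃ F : ℍ → ℂ, HasEquivariantPrimitive N f F
  · obtain ⟨F, hF⟩ := hex
    rw [periodMap_eq hF, mem_parabolicHoms_iff]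
    intro γ hγ
    exact period_eq_zero_of_trace hF γ hγ
  · unfold periodMap
    rw [dif_neg hex]
    exact zero_mem _

/-- The image of `periodHomPair` consists of parabolic homomorphisms (unconditionally). -/
theorem range_periodHomPair_le (N : ℕ) :
    LinearMap.range (periodHomPair N) ≤ parabolicHoms ℂ (Gamma0 N) ℂ := by
  by_cases h : ExistsPeriodMapLinear N
  · obtain ⟨pml, hpml, heq⟩ := periodHomPair_def N h
    rw [heq]
    rintro _ ⟨⟨f, g⟩, rfl⟩
    have hf : pml f ∈ parabolicHoms ℂ (Gamma0 N) ℂ := by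
      rw [hpml f]; exact periodMap_mem_parabolicHoms N f
    have hg : pml g ∈ parabolicHoms ℂ (Gamma0 N) ℂ := by
      rw [hpml g]; exact periodMap_mem_parabolicHoms N g
    simp only [LinearMap.coprod_apply, LinearMap.comp_apply, LinearMap.add_apply,
      LinearMap.sub_apply, LinearMap.id_apply]
    exact Submodule.add_mem _
      (Submodule.add_mem _ hf (charInvolution_mem_parabolicHoms N ℂ ℂ hf))
      (Submodule.sub_mem _ hg (charInvolution_mem_parabolicHoms N ℂ ℂ hg))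
  · unfold periodHomPair
    rw [dif_neg h]
    simp


theorem conj_T_pow_mem_Gamma0 (N : ℕ) (δ : SL(2, ℤ)) :
    δ * ModularGroup.T ^ (N : ℤ) * δ⁻¹ ∈ Gamma0 N := by
  have h1 : ModularGroup.T ^ (N : ℤ) ∈ Gamma N := by
    rw [Gamma_mem, ModularGroup.coe_T_zpow]
    simp
  have h2 : δ * ModularGroup.T ^ (N : ℤ) * δ⁻¹ ∈ Gamma N := (Gamma_normal N).conj_mem _ h1 δ
  rw [Gamma_mem] at h2
  rw [Gamma0_mem]
  exact h2.2.2.1

theorem period_eq_zero_of_conj {Γ : Subgroup SL(2, ℤ)} {G : ℍ → ℂ}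
    (hequiv : IsEquivariantPrimitive Γ G)
    (hlim : ∀ δ : SL(2, ℤ), ∃ L : ℂ, Tendsto (fun w : ℍ => G (δ • w)) atImInfty (𝓝 L))
    (γ : Γ) (δ : SL(2, ℤ)) (m : ℤ)
    (h : ∀ w : ℍ, (γ : SL(2, ℤ)) • (δ • w) = δ • (ModularGroup.T ^ m • w)) :
    hequiv.period γ = 0 := by
  obtain ⟨L, hL⟩ := hlim δ
  have e : ∀ w : ℍ, G (δ • (ModularGroup.T ^ m • w)) - G (δ • w) = hequiv.period γ := by
    intro w
    rw [← h w]
    exact hequiv.sub_eq_period γ (δ • w)
  have h1 : Tendsto (fun w : ℍ => G (δ • (ModularGroup.T ^ m • w)) - G (δ • w)) atImInfty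
      (𝓝 (L - L)) := (hL.comp (tendsto_T_zpow_smul m)).sub hL
  have h2 : Tendsto (fun w : ℍ => G (δ • (ModularGroup.T ^ m • w)) - G (δ • w)) atImInfty
      (𝓝 (hequiv.period γ)) := by
    rw [funext e]
    exact tendsto_const_nhds
  rw [tendsto_nhds_unique h2 h1, sub_self]

theorem periodic_comp_smul (N : ℕ) {G : ℍ → ℂ} (hequiv : IsEquivariantPrimitive (Gamma0 N) G)
    (hlim : ∀ δ : SL(2, ℤ), ∃ L : ℂ, Tendsto (fun w : ℍ => G (δ • w)) atImInfty (𝓝 L))
    (δ : SL(2, ℤ)) :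
    Function.Periodic (fun z : ℂ => G (δ • ofComplex z)) ((N : ℝ) : ℂ) := by
  intro z
  by_cases hz : 0 < z.im
  · have hz' : 0 < (z + ((N : ℝ) : ℂ)).im := by simpa using hz
    have e1 : ofComplex (z + ((N : ℝ) : ℂ)) = ModularGroup.T ^ (N : ℤ) • ofComplex z := by
      apply UpperHalfPlane.ext
      rw [ModularGroup.coe_T_zpow_smul_eq, ofComplex_apply_of_im_pos hz,
        ofComplex_apply_of_im_pos hz']
      simp
    set w := ofComplex z with hw
    set γ' : Gamma0 N := ⟨δ * ModularGroup.T ^ (N : ℤ) * δ⁻¹, conj_T_pow_mem_Gamma0 N δ⟩ with hγ'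
    have e2 : ∀ w : ℍ, (γ' : SL(2, ℤ)) • (δ • w) = δ • (ModularGroup.T ^ (N : ℤ) • w) := by
      intro w
      rw [hγ', ← mul_smul, ← mul_smul]
      congr 1
      group
    have h0 := period_eq_zero_of_conj hequiv hlim γ' δ (N : ℤ) e2
    have h1 := hequiv.sub_eq_period γ' (δ • w)
    rw [h0, e2 w, sub_eq_zero] at h1
    show G (δ • ofComplex (z + ((N : ℝ) : ℂ))) = G (δ • ofComplex z)
    rw [e1]
    exact h1
  · have hz1 : z.im ≤ 0 := not_lt.1 hz
    have hz2 : (z + ((N : ℝ) : ℂ)).im ≤ 0 := by simpa using hz1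
    show G (δ • ofComplex (z + ((N : ℝ) : ℂ))) = G (δ • ofComplex z)
    rw [ofComplex_apply_eq_of_im_nonpos hz2 hz1]

theorem differentiableAt_comp_smul {G g : ℍ → ℂ}
    (hG : ∀ τ : ℍ, HasDerivAt (G ∘ ofComplex) (g τ) ↑τ) (δ : SL(2, ℤ)) {z : ℂ}
    (hz : 0 < z.im) : DifferentiableAt ℂ (fun z : ℂ => G (δ • ofComplex z)) z := by
  have h1 : MDifferentiable 𝓘(ℂ) 𝓘(ℂ) G := by
    rw [UpperHalfPlane.mdifferentiable_iff]
    intro x hx
    exact (hG ⟨x, hx⟩).differentiableAt.differentiableWithinAt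
  have h2 : MDifferentiable 𝓘(ℂ) 𝓘(ℂ) (fun τ : ℍ => δ • τ) :=
    mdifferentiable_smul (g := Matrix.SpecialLinearGroup.mapGL ℝ δ) (by
      rw [Matrix.SpecialLinearGroup.det_mapGL]; simp)
  have h3 : MDifferentiable 𝓘(ℂ) 𝓘(ℂ) (fun τ : ℍ => G (δ • τ)) := h1.comp h2
  rw [UpperHalfPlane.mdifferentiable_iff] at h3
  exact (h3 z hz).differentiableAt ((isOpen_lt continuous_const Complex.continuous_im).mem_nhds hz)

/-- Step A: near each cusp, `Re (G ∘ δ)` on `{im ≥ 1/2}` is dominated by a value of `Re G`. -/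
theorem exists_dominating_point (N : ℕ) [NeZero N] {G g : ℍ → ℂ}
    (hG : ∀ τ : ℍ, HasDerivAt (G ∘ ofComplex) (g τ) ↑τ)
    (hequiv : IsEquivariantPrimitive (Gamma0 N) G)
    (hlim : ∀ δ : SL(2, ℤ), ∃ L : ℂ, Tendsto (fun w : ℍ => G (δ • w)) atImInfty (𝓝 L))
    (δ : SL(2, ℤ)) :
    ∃ z₀ : ℍ, ∀ w : ℍ, 1 / 2 ≤ w.im → (G (δ • w)).re ≤ (G z₀).re := by
  set Gδ : ℂ → ℂ := fun z => G (δ • ofComplex z) with hGδ
  have hN : (0 : ℝ) < N := Nat.cast_pos.2 (NeZero.pos N)
  have hper : Function.Periodic Gδ ((N : ℝ) : ℂ) := periodic_comp_smul N hequiv hlim δ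
  have hdiff : ∀ z : ℂ, 0 < z.im → DifferentiableAt ℂ Gδ z :=
    fun z hz => differentiableAt_comp_smul hG δ hz
  obtain ⟨L, hL⟩ := hlim δ
  have hbd : BoundedAtFilter (comap Complex.im atTop) Gδ :=
    (hL.comp tendsto_comap_im_ofComplex).isBigO_one ℝ
  have hhol : ∀ᶠ z in comap Complex.im atTop, DifferentiableAt ℂ Gδ z := by
    filter_upwards [tendsto_comap.eventually (eventually_gt_atTop (0 : ℝ))] with z hz
      using hdiff z hz
  set Ĝ := Function.Periodic.cuspFunction (N : ℝ) Gδ with hĜ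
  have hĜ0 : DifferentiableAt ℂ Ĝ 0 :=
    Function.Periodic.differentiableAt_cuspFunction_zero hN hper hhol hbd
  have hĜd : ∀ q : ℂ, ‖q‖ < 1 → DifferentiableAt ℂ Ĝ q := by
    intro q hq
    by_cases hq0 : q = 0
    · rw [hq0]; exact hĜ0
    · have him : 0 < (Function.Periodic.invQParam (N : ℝ) q).im := by
        rw [Function.Periodic.im_invQParam]
        have h1 : Real.log ‖q‖ < 0 := Real.log_neg (norm_pos_iff.2 hq0) hq
        have hpi := Real.pi_pos
        apply mul_pos_of_neg_of_neg _ h1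
        apply div_neg_of_neg_of_pos <;> linarith
      have := Function.Periodic.differentiableAt_cuspFunction hN.ne' hper (hdiff _ him)
      rwa [Function.Periodic.qParam_right_inv hN.ne' hq0] at this
  have hĜeq : ∀ z : ℂ, Ĝ (Function.Periodic.qParam (N : ℝ) z) = Gδ z :=
    fun z => Function.Periodic.eq_cuspFunction hN.ne' hper z
  -- the compact disc
  set r₀ : ℝ := Real.exp (-Real.pi / N) with hr₀
  have hr₀pos : 0 < r₀ := Real.exp_pos _
  have hr₀lt : r₀ < 1 := by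
    rw [hr₀, Real.exp_lt_one_iff]
    exact div_neg_of_neg_of_pos (by linarith [Real.pi_pos]) hN
  have hK : IsCompact (Metric.closedBall (0 : ℂ) r₀) := isCompact_closedBall 0 r₀
  have hcont : ContinuousOn (fun q => (Ĝ q).re) (Metric.closedBall (0 : ℂ) r₀) := by
    intro q hq
    have hq' : ‖q‖ < 1 := lt_of_le_of_lt (by simpa using hq) hr₀lt
    exact (Complex.continuous_re.continuousAt.comp (hĜd q hq').continuousAt).continuousWithinAt
  obtain ⟨q₀, hq₀K, hq₀max⟩ := hK.exists_isMaxOn ⟨0, by simp [hr₀pos.le]⟩ hcont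
  -- find a nonzero max point
  obtain ⟨q₁, hq₁0, hq₁lt, hq₁max⟩ : ∃ q₁ : ℂ, q₁ ≠ 0 ∧ ‖q₁‖ < 1 ∧
      ∀ q ∈ Metric.closedBall (0 : ℂ) r₀, (Ĝ q).re ≤ (Ĝ q₁).re := by
    by_cases hq₀0 : q₀ = 0
    · subst hq₀0
      have hE : DifferentiableOn ℂ (fun q => Complex.exp (Ĝ q)) (Metric.ball (0 : ℂ) r₀) := by
        intro q hq
        have hq' : ‖q‖ < 1 := lt_trans (by simpa using hq) hr₀lt
        exact (hĜd q hq').cexp.differentiableWithinAt
      have hmax : IsMaxOn (norm ∘ fun q => Complex.exp (Ĝ q)) (Metric.ball (0 : ℂ) r₀) 0 := by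
        intro q hq
        show ‖Complex.exp (Ĝ q)‖ ≤ ‖Complex.exp (Ĝ 0)‖
        rw [Complex.norm_exp, Complex.norm_exp]
        exact Real.exp_le_exp.2 (hq₀max (Metric.ball_subset_closedBall hq))
      have heq := Complex.eqOn_of_isPreconnected_of_isMaxOn_norm
        (convex_ball (0 : ℂ) r₀).isPreconnected Metric.isOpen_ball hE
        (Metric.mem_ball_self hr₀pos) hmax
      set q₁ : ℂ := ((r₀ / 2 : ℝ) : ℂ) with hq₁
      have hq₁n : ‖q₁‖ = r₀ / 2 := by
        rw [hq₁, Complex.norm_real, Real.norm_of_nonneg (by positivity)]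
      have hq₁ball : q₁ ∈ Metric.ball (0 : ℂ) r₀ := by
        rw [mem_ball_zero_iff, hq₁n]; linarith
      have h1 := heq hq₁ball
      have h2 : (Ĝ q₁).re = (Ĝ 0).re := by
        have := congrArg norm h1
        simp only [Function.const] at this
        rw [Complex.norm_exp, Complex.norm_exp] at this
        exact Real.exp_injective this
      refine ⟨q₁, ?_, ?_, fun q hq => ?_⟩
      · intro h; rw [h, norm_zero] at hq₁n; linarith
      · rw [hq₁n]; linarith
      · rw [h2]; exact hq₀max hq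
    · exact ⟨q₀, hq₀0, lt_of_le_of_lt (by simpa using hq₀K) hr₀lt, fun q hq => hq₀max hq⟩
  -- conclude
  refine ⟨δ • ofComplex (Function.Periodic.invQParam (N : ℝ) q₁), fun w hw => ?_⟩
  have e1 : G (δ • ofComplex (Function.Periodic.invQParam (N : ℝ) q₁)) = Ĝ q₁ := by
    have := hĜeq (Function.Periodic.invQParam (N : ℝ) q₁)
    rw [Function.Periodic.qParam_right_inv hN.ne' hq₁0] at this
    exact this.symm
  have e2 : G (δ • w) = Ĝ (Function.Periodic.qParam (N : ℝ) ↑w) := by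
    rw [hĜeq]
    show _ = G (δ • ofComplex ↑w)
    rw [ofComplex_apply]
  rw [e1, e2]
  apply hq₁max
  rw [mem_closedBall_zero_iff, Function.Periodic.norm_qParam, hr₀]
  apply Real.exp_le_exp.2
  apply div_le_div_of_nonneg_right _ hN.le
  rw [UpperHalfPlane.coe_im]
  nlinarith [Real.pi_pos]

/-- Step B: `Re G` attains its maximum on `ℍ`. -/
theorem exists_max_re (N : ℕ) [NeZero N] {G g : ℍ → ℂ}
    (hG : ∀ τ : ℍ, HasDerivAt (G ∘ ofComplex) (g τ) ↑τ)
    (hequiv : IsEquivariantPrimitive (Gamma0 N) G)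
    (hre : ∀ (γ : Gamma0 N) (z : ℍ), (G ((γ : SL(2, ℤ)) • z)).re = (G z).re)
    (hlim : ∀ δ : SL(2, ℤ), ∃ L : ℂ, Tendsto (fun w : ℍ => G (δ • w)) atImInfty (𝓝 L)) :
    ∃ z₀ : ℍ, ∀ z : ℍ, (G z).re ≤ (G z₀).re := by
  choose zf hzf using fun δ : SL(2, ℤ) => exists_dominating_point N hG hequiv hlim δ
  have hfin : Finite (SL(2, ℤ) ⧸ Gamma0 N) := Subgroup.finite_quotient_of_finiteIndex
  have hne : Nonempty (SL(2, ℤ) ⧸ Gamma0 N) := ⟨QuotientGroup.mk 1⟩
  obtain ⟨x₀, hx₀⟩ := Finite.exists_max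
    (fun x : SL(2, ℤ) ⧸ Gamma0 N => (G (zf (Quotient.out x)⁻¹)).re)
  refine ⟨zf (Quotient.out x₀)⁻¹, fun z => ?_⟩
  obtain ⟨γ₀, hγ₀⟩ := ModularGroup.exists_smul_mem_fd z
  set w := γ₀ • z with hw
  have him : 1 / 2 ≤ w.im := by
    have h3 := ModularGroup.three_le_four_mul_im_sq_of_mem_fd hγ₀
    have hpos := w.im_pos
    nlinarith
  set x : SL(2, ℤ) ⧸ Gamma0 N := QuotientGroup.mk γ₀ with hx
  have hmem : γ₀⁻¹ * Quotient.out x ∈ Gamma0 N := by
    rw [← QuotientGroup.eq]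
    exact (QuotientGroup.out_eq' x).symm
  have hz : z = (γ₀⁻¹ * Quotient.out x) • ((Quotient.out x)⁻¹ • w) := by
    rw [← mul_smul, hw, ← mul_smul]
    simp
  calc (G z).re = (G ((γ₀⁻¹ * Quotient.out x) • ((Quotient.out x)⁻¹ • w))).re := by rw [← hz]
    _ = (G ((Quotient.out x)⁻¹ • w)).re := hre ⟨_, hmem⟩ _
    _ ≤ (G (zf (Quotient.out x)⁻¹)).re := hzf _ w him
    _ ≤ _ := hx₀ x

/-- CORE (maximum principle on the compactified modular curve): a holomorphic function on `ℍ`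
whose real part is `Γ₀(N)`-invariant and which has a limit at every cusp has zero derivative. -/
theorem deriv_eq_zero_of_re_invariant (N : ℕ) [NeZero N] {G g : ℍ → ℂ}
    (hG : ∀ τ : ℍ, HasDerivAt (G ∘ ofComplex) (g τ) ↑τ)
    (hequiv : IsEquivariantPrimitive (Gamma0 N) G)
    (hre : ∀ (γ : Gamma0 N) (z : ℍ), (G ((γ : SL(2, ℤ)) • z)).re = (G z).re)
    (hlim : ∀ δ : SL(2, ℤ), ∃ L : ℂ, Tendsto (fun w : ℍ => G (δ • w)) atImInfty (𝓝 L)) :
    ∀ τ : ℍ, g τ = 0 := by
  obtain ⟨z₀, hz₀⟩ := exists_max_re N hG hequiv hre hlim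
  set U : Set ℂ := {z | 0 < z.im} with hU
  have hUo : IsOpen U := isOpen_lt continuous_const Complex.continuous_im
  have hUc : IsPreconnected U := (convex_halfSpace_im_gt 0).isPreconnected
  have hE : ∀ x (hx : x ∈ U), HasDerivAt (fun z => Complex.exp (G (ofComplex z)))
      (Complex.exp (G (ofComplex x)) * g ⟨x, hx⟩) x := fun x hx => (hG ⟨x, hx⟩).cexp
  have hEd : DifferentiableOn ℂ (fun z => Complex.exp (G (ofComplex z))) U :=
    fun x hx => (hE x hx).differentiableAt.differentiableWithinAt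
  have hmax : IsMaxOn (norm ∘ fun z => Complex.exp (G (ofComplex z))) U ↑z₀ := by
    intro x hx
    show ‖Complex.exp (G (ofComplex x))‖ ≤ ‖Complex.exp (G (ofComplex ↑z₀))‖
    rw [Complex.norm_exp, Complex.norm_exp, ofComplex_apply]
    exact Real.exp_le_exp.2 (hz₀ _)
  have heq := Complex.eqOn_of_isPreconnected_of_isMaxOn_norm hUc hUo hEd z₀.2 hmax
  intro τ
  have h1 : HasDerivAt (fun z => Complex.exp (G (ofComplex z))) 0 ↑τ := by
    have hc : HasDerivAt (fun _ : ℂ => Complex.exp (G (ofComplex ↑z₀))) 0 ↑τ :=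
      hasDerivAt_const _ _
    refine hc.congr_of_eventuallyEq ?_
    filter_upwards [hUo.mem_nhds τ.2] with x hx using heq hx
  have h2 := (hE ↑τ τ.2).unique h1
  rcases mul_eq_zero.1 h2 with h | h
  · exact absurd h (Complex.exp_ne_zero _)
  · exact h



/-- The reflection `z ↦ -conj z` of the upper half plane. -/
def refl (z : ℍ) : ℍ := ⟨-conj (z : ℂ), by simpa using z.im_pos⟩

theorem coe_refl (z : ℍ) : (refl z : ℂ) = -conj (z : ℂ) := rfl

theorem refl_refl (z : ℍ) : refl (refl z) = z := by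
  apply UpperHalfPlane.ext
  simp [coe_refl]

theorem refl_im (z : ℍ) : (refl z).im = z.im := by
  rw [← UpperHalfPlane.coe_im, coe_refl]
  simp

theorem tendsto_refl : Tendsto refl atImInfty atImInfty := by
  rw [atImInfty, tendsto_comap_iff]
  have : UpperHalfPlane.im ∘ refl = UpperHalfPlane.im := funext refl_im
  rw [this]
  exact tendsto_comap

theorem refl_smul (γ : SL(2, ℤ)) (z : ℍ) : refl (γ • z) = jConjSL γ • refl z := by
  apply UpperHalfPlane.ext
  rw [coe_refl, coe_specialLinearGroup_apply, coe_specialLinearGroup_apply, coe_refl]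
  simp only [jConjSL_coe, jConjMat_apply_zero_zero, jConjMat_apply_zero_one,
    jConjMat_apply_one_zero, jConjMat_apply_one_one, eq_intCast, Int.cast_neg, Complex.ofReal_neg,
    Complex.ofReal_intCast, map_div₀, map_add, map_mul, map_intCast]
  have h : -(γ 1 0 : ℂ) * -conj (z : ℂ) + (γ 1 1 : ℂ) = (γ 1 0 : ℂ) * conj (z : ℂ) + (γ 1 1 : ℂ) := by
    ring
  rw [h, ← neg_div]
  congr 1
  ring

theorem hasDerivAt_star {F f : ℍ → ℂ} (hF : ∀ τ : ℍ, HasDerivAt (F ∘ ofComplex) (f τ) ↑τ)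
    (τ : ℍ) :
    HasDerivAt ((fun z : ℍ => conj (F (refl z))) ∘ ofComplex) (-conj (f (refl τ))) ↑τ := by
  have h1 : HasDerivAt (conj ∘ (F ∘ ofComplex) ∘ conj) (conj (f (refl τ)))
      (conj ((refl τ : ℍ) : ℂ)) := (hF (refl τ)).conj_conj
  have e : conj ((refl τ : ℍ) : ℂ) = -(τ : ℂ) := by
    rw [coe_refl]; simp
  rw [e] at h1
  have h2 : HasDerivAt ((conj ∘ (F ∘ ofComplex) ∘ conj) ∘ Neg.neg)
      (conj (f (refl τ)) * (-1)) ↑τ := HasDerivAt.comp (↑τ : ℂ) h1 (hasDerivAt_neg (↑τ : ℂ))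
  rw [mul_neg_one] at h2
  refine h2.congr_of_eventuallyEq ?_
  filter_upwards [(isOpen_lt continuous_const Complex.continuous_im).mem_nhds τ.2] with x hx
  show conj (F (refl (ofComplex x))) = conj (F (ofComplex (conj (-x))))
  congr 2
  apply UpperHalfPlane.ext
  have hx' : 0 < (conj (-x)).im := by simpa using hx
  rw [coe_refl, ofComplex_apply_of_im_pos hx, ofComplex_apply_of_im_pos hx']
  simp

theorem sub_star (N : ℕ) {F : ℍ → ℂ} {p : Gamma0 N → ℂ}
    (hp : ∀ (γ : Gamma0 N) (z : ℍ), F ((γ : SL(2, ℤ)) • z) - F z = p γ) (γ : Gamma0 N) (z : ℍ) :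
    conj (F (refl ((γ : SL(2, ℤ)) • z))) - conj (F (refl z)) = conj (p (jConjGamma0 N γ)) := by
  rw [refl_smul, ← map_sub]
  congr 1
  exact hp (jConjGamma0 N γ) (refl z)

theorem tendsto_star {F : ℍ → ℂ}
    (hlim : ∀ δ : SL(2, ℤ), ∃ L : ℂ, Tendsto (fun w : ℍ => F (δ • w)) atImInfty (𝓝 L))
    (δ : SL(2, ℤ)) :
    ∃ L : ℂ, Tendsto (fun w : ℍ => conj (F (refl (δ • w)))) atImInfty (𝓝 L) := by
  obtain ⟨L, hL⟩ := hlim (jConjSL δ)
  refine ⟨conj L, ?_⟩
  have h1 : Tendsto (fun w : ℍ => F (jConjSL δ • refl w)) atImInfty (𝓝 L) :=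
    hL.comp tendsto_refl
  have h2 := (Complex.continuous_conj.tendsto L).comp h1
  refine h2.congr fun w => ?_
  show conj (F (jConjSL δ • refl w)) = conj (F (refl (δ • w)))
  rw [refl_smul]



/-- Core, restated with an explicit period function with purely imaginary values. -/
theorem deriv_eq_zero_of_periods (N : ℕ) [NeZero N] {G g : ℍ → ℂ} {p : Gamma0 N → ℂ}
    (hG : ∀ τ : ℍ, HasDerivAt (G ∘ ofComplex) (g τ) ↑τ)
    (hp : ∀ (γ : Gamma0 N) (z : ℍ), G ((γ : SL(2, ℤ)) • z) - G z = p γ)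
    (hp0 : ∀ γ : Gamma0 N, (p γ).re = 0)
    (hlim : ∀ δ : SL(2, ℤ), ∃ L : ℂ, Tendsto (fun w : ℍ => G (δ • w)) atImInfty (𝓝 L)) :
    ∀ τ : ℍ, g τ = 0 := by
  refine deriv_eq_zero_of_re_invariant N hG (fun γ => ⟨p γ, hp γ⟩) (fun γ z => ?_) hlim
  have h := congrArg Complex.re (hp γ z)
  rw [Complex.sub_re, hp0 γ] at h
  linarith



/-- Injectivity of `periodHomPair`, given existence of equivariant primitives. -/
theorem periodHomPair_injective_of_exists (N : ℕ) [NeZero N]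
    (hex : ∀ f : CuspForm (Gamma0 N) 2, ∃ F : ℍ → ℂ, HasEquivariantPrimitive N f F) :
    Function.Injective (periodHomPair N) := by
  have hlin := existsPeriodMapLinear_of_exists N hex
  obtain ⟨pml, hpml, heq⟩ := periodHomPair_def N hlin
  rw [injective_iff_map_eq_zero]
  rintro ⟨f, g⟩ h0
  obtain ⟨F, hF⟩ := hex f
  obtain ⟨Gp, hGp⟩ := hex g
  set pF : Gamma0 N → ℂ := fun γ => hF.2.2.1.period γ with hpF
  set pG : Gamma0 N → ℂ := fun γ => hGp.2.2.1.period γ with hpG
  have hFp : ∀ (γ : Gamma0 N) (z : ℍ), F ((γ : SL(2, ℤ)) • z) - F z = pF γ :=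
    fun γ z => hF.2.2.1.sub_eq_period γ z
  have hGpp : ∀ (γ : Gamma0 N) (z : ℍ), Gp ((γ : SL(2, ℤ)) • z) - Gp z = pG γ :=
    fun γ z => hGp.2.2.1.sub_eq_period γ z
  -- the relation between the periods
  have hrel : ∀ γ : Gamma0 N,
      pF γ + pF (jConjGamma0 N γ) + (pG γ - pG (jConjGamma0 N γ)) = 0 := by
    intro γ
    have := congrArg (fun φ : Additive (Gamma0 N) →+ ℂ => φ (Additive.ofMul γ)) h0
    rw [heq] at this
    simp only [LinearMap.coprod_apply, LinearMap.comp_apply, LinearMap.add_apply,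
      LinearMap.sub_apply, LinearMap.id_apply, AddMonoidHom.add_apply, AddMonoidHom.sub_apply,
      charInvolution_apply, hpml, AddMonoidHom.zero_apply, toMul_ofMul] at this
    rw [periodMap_eq hF, periodMap_eq hGp] at this
    exact this
  -- the two auxiliary holomorphic functions
  have hstarF := sub_star N hFp
  have hstarG := sub_star N hGpp
  -- G₁ = A + B
  have key1 : ∀ τ : ℍ, (f τ + g τ) + (-conj (f (refl τ)) - -conj (g (refl τ))) = 0 := by
    refine deriv_eq_zero_of_periods N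
      (G := fun z => (F z + Gp z) + (conj (F (refl z)) - conj (Gp (refl z))))
      (p := fun γ => (pF γ + pG γ)
        + (conj (pF (jConjGamma0 N γ)) - conj (pG (jConjGamma0 N γ))))
      (fun τ => ?_) (fun γ z => ?_) (fun γ => ?_) (fun δ => ?_)
    · exact ((hF.1 τ).add (hGp.1 τ)).add ((hasDerivAt_star hF.1 τ).sub (hasDerivAt_star hGp.1 τ))
    · rw [← hFp γ z, ← hGpp γ z, ← hstarF γ z, ← hstarG γ z]
      ring
    · have h := hrel γ
      have h1 : pF γ + pG γ = -(pF (jConjGamma0 N γ) - pG (jConjGamma0 N γ)) := by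
        linear_combination h
      rw [h1, ← map_sub]
      simp
    · obtain ⟨L₁, h₁⟩ := hF.2.2.2 δ
      obtain ⟨L₂, h₂⟩ := hGp.2.2.2 δ
      obtain ⟨L₃, h₃⟩ := tendsto_star hF.2.2.2 δ
      obtain ⟨L₄, h₄⟩ := tendsto_star hGp.2.2.2 δ
      exact ⟨(L₁ + L₂) + (L₃ - L₄), (h₁.add h₂).add (h₃.sub h₄)⟩
  -- G₂ = I * (A - B)
  have key2 : ∀ τ : ℍ,
      Complex.I * ((f τ + g τ) - (-conj (f (refl τ)) - -conj (g (refl τ)))) = 0 := by
    refine deriv_eq_zero_of_periods N
      (G := fun z => Complex.I * ((F z + Gp z) - (conj (F (refl z)) - conj (Gp (refl z)))))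
      (p := fun γ => Complex.I * ((pF γ + pG γ)
        - (conj (pF (jConjGamma0 N γ)) - conj (pG (jConjGamma0 N γ)))))
      (fun τ => ?_) (fun γ z => ?_) (fun γ => ?_) (fun δ => ?_)
    · exact (((hF.1 τ).add (hGp.1 τ)).sub
        ((hasDerivAt_star hF.1 τ).sub (hasDerivAt_star hGp.1 τ))).const_mul Complex.I
    · rw [← hFp γ z, ← hGpp γ z, ← hstarF γ z, ← hstarG γ z]
      ring
    · have h := hrel γ
      have h1 : pF γ + pG γ = -(pF (jConjGamma0 N γ) - pG (jConjGamma0 N γ)) := by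
        linear_combination h
      rw [h1, ← map_sub]
      simp only [Complex.mul_re, Complex.I_re, Complex.I_im, Complex.sub_re, Complex.sub_im,
        Complex.neg_re, Complex.neg_im, Complex.conj_re, Complex.conj_im, zero_mul, one_mul]
      ring
    · obtain ⟨L₁, h₁⟩ := hF.2.2.2 δ
      obtain ⟨L₂, h₂⟩ := hGp.2.2.2 δ
      obtain ⟨L₃, h₃⟩ := tendsto_star hF.2.2.2 δ
      obtain ⟨L₄, h₄⟩ := tendsto_star hGp.2.2.2 δ
      exact ⟨Complex.I * ((L₁ + L₂) - (L₃ - L₄)), ((h₁.add h₂).sub (h₃.sub h₄)).const_mul _⟩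
  have hsum : ∀ τ : ℍ, f τ + g τ = 0 := by
    intro τ
    have h1 := key1 τ
    have h2 := (mul_eq_zero.1 (key2 τ)).resolve_left Complex.I_ne_zero
    linear_combination (1 / 2 : ℂ) * h1 + (1 / 2 : ℂ) * h2
  have hdiff : ∀ τ : ℍ, f τ = g τ := by
    intro τ
    have h1 := key1 (refl τ)
    have h2 := (mul_eq_zero.1 (key2 (refl τ))).resolve_left Complex.I_ne_zero
    rw [refl_refl] at h1 h2
    have h3 : conj (f τ) = conj (g τ) := by
      linear_combination (-1 / 2 : ℂ) * h1 + (1 / 2 : ℂ) * h2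
    exact (starRingEnd ℂ).injective h3
  have hf : f = 0 := by
    ext τ
    have h1 := hsum τ
    have h2 := hdiff τ
    rw [← h2] at h1
    have : (2 : ℂ) * f τ = 0 := by linear_combination h1
    simpa using this
  have hg : g = 0 := by
    ext τ
    rw [← hdiff τ, hf]
  rw [hf, hg]
  rfl

/-- `periodHomPair` with codomain restricted to the parabolic homomorphisms. -/
noncomputable def periodHomPairPar (N : ℕ) :
    (CuspForm (Gamma0 N) 2 × CuspForm (Gamma0 N) 2) →ₗ[ℂ] parabolicHoms ℂ (Gamma0 N) ℂ :=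
  (periodHomPair N).codRestrict (parabolicHoms ℂ (Gamma0 N) ℂ)
    (fun x => range_periodHomPair_le N ⟨x, rfl⟩)

theorem periodHomPairPar_injective (N : ℕ) [NeZero N]
    (hex : ∀ f : CuspForm (Gamma0 N) 2, ∃ F : ℍ → ℂ, HasEquivariantPrimitive N f F) :
    Function.Injective (periodHomPairPar N) := by
  intro x y h
  apply periodHomPair_injective_of_exists N hex
  exact congrArg Subtype.val h

/-- Finite-dimensionality of `S₂(Γ₀(N))` from Eichler–Shimura injectivity. -/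
theorem finiteDimensional_cuspForm_of (N : ℕ) [NeZero N]
    (hex : ∀ f : CuspForm (Gamma0 N) 2, ∃ F : ℍ → ℂ, HasEquivariantPrimitive N f F)
    [FiniteDimensional ℂ (parabolicHoms ℂ (Gamma0 N) ℂ)] :
    FiniteDimensional ℂ (CuspForm (Gamma0 N) 2) := by
  have h1 : FiniteDimensional ℂ (CuspForm (Gamma0 N) 2 × CuspForm (Gamma0 N) 2) :=
    FiniteDimensional.of_injective (periodHomPairPar N) (periodHomPairPar_injective N hex)
  exact FiniteDimensional.of_injective
    (LinearMap.inl ℂ (CuspForm (Gamma0 N) 2) (CuspForm (Gamma0 N) 2)) LinearMap.inl_injective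

/-- The upper bound `2 dim S₂(Γ₀(N)) ≤ dim (parabolic homomorphisms)`. -/
theorem two_mul_finrank_cuspForm_le (N : ℕ) [NeZero N]
    (hex : ∀ f : CuspForm (Gamma0 N) 2, ∃ F : ℍ → ℂ, HasEquivariantPrimitive N f F)
    [FiniteDimensional ℂ (parabolicHoms ℂ (Gamma0 N) ℂ)] :
    2 * Module.finrank ℂ (CuspForm (Gamma0 N) 2)
      ≤ Module.finrank ℂ (parabolicHoms ℂ (Gamma0 N) ℂ) := by
  have hfd := finiteDimensional_cuspForm_of N hex
  have h := LinearMap.finrank_le_finrank_of_injective (periodHomPairPar_injective N hex)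
  rw [Module.finrank_prod] at h
  omega

/-- Eichler–Shimura (the frozen statement S21), from existence of equivariant primitives and
the dimension inequality. -/
theorem eichlerShimura_of (N : ℕ) [NeZero N]
    (hex : ∀ f : CuspForm (Gamma0 N) 2, ∃ F : ℍ → ℂ, HasEquivariantPrimitive N f F)
    [FiniteDimensional ℂ (parabolicHoms ℂ (Gamma0 N) ℂ)]
    (hdim : Module.finrank ℂ (parabolicHoms ℂ (Gamma0 N) ℂ)
      ≤ 2 * Module.finrank ℂ (CuspForm (Gamma0 N) 2)) :
    Function.Injective (periodHomPair N)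
      ∧ LinearMap.range (periodHomPair N) = parabolicHoms ℂ (Gamma0 N) ℂ := by
  have hinj := periodHomPair_injective_of_exists N hex
  refine ⟨hinj, ?_⟩
  have hfd := finiteDimensional_cuspForm_of N hex
  refine Submodule.eq_of_le_of_finrank_le (range_periodHomPair_le N) ?_
  rw [LinearMap.finrank_range_of_inj hinj, Module.finrank_prod]
  omega

end Injective

/-- **Injectivity of the period pairing** `(f, g) ↦ (1 + c) P f + (1 - c) P g` on
`S₂(Γ₀(N)) × S₂(Γ₀(N))` (`c` the involution induced by `z ↦ -conj z`). -/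
theorem periodHomPair_injective (N : ℕ) [NeZero N] :
    Function.Injective (periodHomPair N) :=
  Injective.periodHomPair_injective_of_exists N (fun f => exists_hasEquivariantPrimitive N f)

end Fermat.Agent.ES
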