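/-
ES / E2a: maximum principle on the compactified modular curve `X₀(N)`.

A holomorphic function `G` on the upper half plane whose real part is `Γ₀(N)`-invariant and
which is `N`-periodic with a limit at every cusp is constant.
-/
import Mathlib

set_option autoImplicit false

namespace Fermat.Agent.ES

open UpperHalfPlane CongruenceSubgroup Filter Topology
open scoped MatrixGroups ModularForm Manifold

namespace MaxPrinciple

open Function Complex

local notation "𝕢" => Periodic.qParam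

/-- Periodicity of `F ∘ ofComplex` from invariance under `h +ᵥ ·`. -/
lemma periodic_of_forall_vadd {h : ℝ} {F : ℍ → ℂ}
    (hF : ∀ τ : ℍ, F (h +ᵥ τ) = F τ) : Periodic (F ∘ ofComplex) h := by
  intro w
  by_cases hw : 0 < im w
  · have hw' : 0 < im (w + h) := by simpa using hw
    simp only [comp_apply, ofComplex_apply_of_im_pos hw', ofComplex_apply_of_im_pos hw]
    rw [← hF ⟨w, hw⟩]
    congr 1
    ext
    simp [add_comm]
  · have hw' : im (w + h) ≤ 0 := by simpa using not_lt.mp hw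
    simp [ofComplex_apply_of_im_nonpos hw', ofComplex_apply_of_im_nonpos (not_lt.mp hw)]

/-- Points of the standard fundamental domain have imaginary part at least `1 / 2`. -/
lemma half_le_im_of_mem_fd {w : ℍ} (hw : w ∈ ModularGroup.fd) : (1 : ℝ) / 2 ≤ w.im := by
  have h1 := ModularGroup.three_le_four_mul_im_sq_of_mem_fd hw
  have h2 := w.im_pos
  nlinarith

/-- The norm of the `q`-parameter on the fundamental domain is bounded away from `1`. -/
lemma norm_qParam_le_of_mem_fd {N : ℕ} [NeZero N] {w : ℍ} (hw : w ∈ ModularGroup.fd) :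
    ‖𝕢 (N : ℝ) (w : ℂ)‖ ≤ Real.exp (-Real.pi / N) := by
  rw [Periodic.norm_qParam]
  apply Real.exp_le_exp.mpr
  have hN : (0 : ℝ) < N := Nat.cast_pos.mpr (NeZero.pos N)
  have h1 := half_le_im_of_mem_fd hw
  rw [div_le_div_iff_of_pos_right hN]
  have : (w : ℂ).im = w.im := rfl
  rw [this]
  nlinarith [Real.pi_pos]

/-- A holomorphic function on `ℍ` whose exponential is constant is constant. -/
lemma eq_of_exp_eq_const (G : ℍ → ℂ) (hholo : MDifferentiable 𝓘(ℂ) 𝓘(ℂ) G) (c : ℂ)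
    (hc : ∀ z : ℍ, Complex.exp (G z) = c) : ∀ z w : ℍ, G z = G w := by
  have hG : DifferentiableOn ℂ (G ∘ ofComplex) {z : ℂ | 0 < z.im} :=
    UpperHalfPlane.mdifferentiable_iff.mp hholo
  have hopen : IsOpen {z : ℂ | 0 < z.im} := isOpen_lt continuous_const Complex.continuous_im
  have hconv : Convex ℝ {z : ℂ | 0 < z.im} := by
    have := convex_halfSpace_im_gt 0
    exact this
  have hderiv : Set.EqOn (deriv (G ∘ ofComplex)) 0 {z : ℂ | 0 < z.im} := by
    intro z hz
    have hGz : DifferentiableAt ℂ (G ∘ ofComplex) z := (hG z hz).differentiableAt (hopen.mem_nhds hz)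
    have h1 : HasDerivAt (fun x => Complex.exp ((G ∘ ofComplex) x))
        (Complex.exp ((G ∘ ofComplex) z) * deriv (G ∘ ofComplex) z) z := hGz.hasDerivAt.cexp
    have h2 : (fun x => Complex.exp ((G ∘ ofComplex) x)) =ᶠ[𝓝 z] fun _ => c := by
      filter_upwards [hopen.mem_nhds hz] with x _
      exact hc _
    have h3 : HasDerivAt (fun x => Complex.exp ((G ∘ ofComplex) x)) 0 z :=
      (hasDerivAt_const z c).congr_of_eventuallyEq h2
    have h4 := h1.unique h3
    rcases mul_eq_zero.mp h4 with h5 | h5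
    · exact absurd h5 (Complex.exp_ne_zero _)
    · exact h5
  intro z w
  have key := hopen.is_const_of_deriv_eq_zero hconv.isPreconnected hG hderiv z.im_pos w.im_pos
  simpa using key

end MaxPrinciple

open MaxPrinciple in
/-- **Maximum principle on `X₀(N)`**: a holomorphic function on `ℍ` with `Γ₀(N)`-invariant real
part which is `N`-periodic and has a limit at every cusp is constant. -/
theorem eq_const_of_re_invariant (N : ℕ) [NeZero N] (G : ℍ → ℂ)
    (hholo : MDifferentiable 𝓘(ℂ) 𝓘(ℂ) G)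
    (hinv : ∀ γ ∈ Gamma0 N, ∀ z : ℍ, (G (γ • z)).re = (G z).re)
    (hper : ∀ (δ : SL(2, ℤ)) (w : ℍ), G (δ • ((N : ℝ) +ᵥ w)) = G (δ • w))
    (hlim : ∀ δ : SL(2, ℤ), ∃ L : ℂ, Tendsto (fun w : ℍ => G (δ • w)) atImInfty (𝓝 L)) :
    ∀ z w : ℍ, G z = G w := by
  classical
  have hN : (0 : ℝ) < N := Nat.cast_pos.mpr (NeZero.pos N)
  -- the exponential of `G`, seen from the cusp `δ ∞`
  set E : SL(2, ℤ) → ℍ → ℂ := fun δ w => Complex.exp (G (δ • w)) with hE
  have hEhol : ∀ δ, MDifferentiable 𝓘(ℂ) 𝓘(ℂ) (E δ) := by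
    intro δ
    have h1 : MDifferentiable 𝓘(ℂ) 𝓘(ℂ) (fun w : ℍ => G (δ • w)) :=
      hholo.comp (mdifferentiable_smul (g := (δ : GL (Fin 2) ℝ)) (by simp))
    rw [UpperHalfPlane.mdifferentiable_iff] at h1 ⊢
    exact h1.cexp
  have hEper : ∀ δ, Function.Periodic (E δ ∘ ofComplex) N := fun δ =>
    periodic_of_forall_vadd (fun τ => by simp only [hE]; rw [hper])
  have hEbdd : ∀ δ, IsBoundedAtImInfty (E δ) := by
    intro δ
    obtain ⟨L, hL⟩ := hlim δ
    have h1 : Tendsto (E δ) atImInfty (𝓝 (Complex.exp L)) :=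
      (Complex.continuous_exp.tendsto L).comp hL
    exact h1.isBigO_one ℝ
  -- the cusp functions
  set g : SL(2, ℤ) → ℂ → ℂ := fun δ => cuspFunction (N : ℝ) (E δ) with hg
  have hgdiff : ∀ δ, DifferentiableOn ℂ (g δ) (Metric.ball 0 1) := fun δ =>
    differentiableOn_cuspFunction_ball hN (hEper δ) (hEhol δ) (hEbdd δ)
  have hgq : ∀ δ (w : ℍ), g δ (Function.Periodic.qParam (N : ℝ) (w : ℂ)) = E δ w := fun δ w =>
    eq_cuspFunction w hN.ne' (hEper δ)
  -- coset representatives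
  set r : SL(2, ℤ) ⧸ Gamma0 N → SL(2, ℤ) := fun q => (Quotient.out q)⁻¹ with hr
  set ρ : ℝ := Real.exp (-Real.pi / N) with hρ
  have hρ1 : ρ < 1 := by
    rw [hρ]
    exact Real.exp_lt_one_iff.mpr (div_neg_of_neg_of_pos (neg_lt_zero.mpr Real.pi_pos) hN)
  have hρ0 : 0 ≤ ρ := (Real.exp_pos _).le
  have hsub : Metric.closedBall (0 : ℂ) ρ ⊆ Metric.ball 0 1 := Metric.closedBall_subset_ball hρ1
  -- every value of `‖exp ∘ G‖` is attained by some cusp function on the closed ball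
  have hval : ∀ z : ℍ, ∃ q : SL(2, ℤ) ⧸ Gamma0 N, ∃ x ∈ Metric.closedBall (0 : ℂ) ρ,
      ‖Complex.exp (G z)‖ = ‖g (r q) x‖ := by
    intro z
    obtain ⟨γ, hγ⟩ := ModularGroup.exists_smul_mem_fd z
    set q : SL(2, ℤ) ⧸ Gamma0 N := (γ : SL(2, ℤ) ⧸ Gamma0 N) with hq
    have hmem : (Quotient.out q)⁻¹ * γ ∈ Gamma0 N :=
      QuotientGroup.eq.mp (QuotientGroup.out_eq' q)
    have hz : z = ((Quotient.out q)⁻¹ * γ)⁻¹ • (r q • (γ • z)) := by
      rw [hr, ← mul_smul, ← mul_smul]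
      simp
    refine ⟨q, Function.Periodic.qParam (N : ℝ) ((γ • z : ℍ) : ℂ), ?_, ?_⟩
    · rw [mem_closedBall_zero_iff]
      exact norm_qParam_le_of_mem_fd hγ
    · rw [hgq, hE]
      simp only [Complex.norm_exp]
      congr 1
      conv_lhs => rw [hz]
      exact hinv _ (inv_mem hmem) _
  -- maximum over the closed ball, for each coset
  have hmax : ∀ q : SL(2, ℤ) ⧸ Gamma0 N, ∃ x ∈ Metric.closedBall (0 : ℂ) ρ,
      ∀ y ∈ Metric.closedBall (0 : ℂ) ρ, ‖g (r q) y‖ ≤ ‖g (r q) x‖ := by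
    intro q
    have hcont : ContinuousOn (fun y => ‖g (r q) y‖) (Metric.closedBall (0 : ℂ) ρ) :=
      ((hgdiff (r q)).continuousOn.mono hsub).norm
    obtain ⟨x, hx, hxmax⟩ := (isCompact_closedBall (0 : ℂ) ρ).exists_isMaxOn
      ⟨0, Metric.mem_closedBall_self hρ0⟩ hcont
    exact ⟨x, hx, fun y hy => hxmax hy⟩
  choose xq hxq hxqmax using hmax
  obtain ⟨q₀, hq₀⟩ := Finite.exists_max (fun q : SL(2, ℤ) ⧸ Gamma0 N => ‖g (r q) (xq q)‖)
  set M : ℝ := ‖g (r q₀) (xq q₀)‖ with hM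
  have hbound : ∀ z : ℍ, ‖Complex.exp (G z)‖ ≤ M := by
    intro z
    obtain ⟨q, x, hx, hzx⟩ := hval z
    rw [hzx]
    exact (hxqmax q x hx).trans (hq₀ q)
  -- the cusp function at `q₀` is bounded by `M` on the whole unit ball
  have hball : ∀ x ∈ Metric.ball (0 : ℂ) 1, ‖g (r q₀) x‖ ≤ M := by
    have hne : ∀ x ∈ Metric.ball (0 : ℂ) 1, x ≠ 0 → ‖g (r q₀) x‖ ≤ M := by
      intro x hx hx0
      have hx1 : ‖x‖ < 1 := mem_ball_zero_iff.mp hx
      have him := Function.Periodic.im_invQParam_pos_of_norm_lt_one hN hx1 hx0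
      have h1 := hgq (r q₀) ⟨_, him⟩
      rw [show ((⟨_, him⟩ : ℍ) : ℂ) = Function.Periodic.invQParam (N : ℝ) x from rfl,
        Function.Periodic.qParam_right_inv hN.ne' hx0] at h1
      rw [h1]
      exact hbound _
    intro x hx
    rcases eq_or_ne x 0 with rfl | hx0
    · have hcont : ContinuousAt (g (r q₀)) 0 :=
        ((hgdiff (r q₀)).differentiableAt (Metric.ball_mem_nhds 0 one_pos)).continuousAt
      have ht : Tendsto (fun y => ‖g (r q₀) y‖) (𝓝[≠] (0 : ℂ)) (𝓝 ‖g (r q₀) 0‖) :=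
        (hcont.norm.tendsto).mono_left nhdsWithin_le_nhds
      refine le_of_tendsto ht ?_
      have h1 : ∀ᶠ y in 𝓝[≠] (0 : ℂ), y ∈ Metric.ball (0 : ℂ) 1 :=
        eventually_nhdsWithin_of_eventually_nhds (Metric.ball_mem_nhds 0 one_pos)
      filter_upwards [h1, self_mem_nhdsWithin] with y hy hy0
      exact hne y hy hy0
    · exact hne x hx hx0
  -- maximum modulus principle on the unit ball
  have hx₀ : xq q₀ ∈ Metric.ball (0 : ℂ) 1 := hsub (hxq q₀)
  have hconst : Set.EqOn (g (r q₀)) (Function.const ℂ (g (r q₀) (xq q₀))) (Metric.ball 0 1) :=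
    Complex.eqOn_of_isPreconnected_of_isMaxOn_norm (convex_ball (0 : ℂ) 1).isPreconnected
      Metric.isOpen_ball (hgdiff (r q₀)) hx₀ (fun x hx => hball x hx)
  -- hence `exp ∘ G` is constant
  have hexp : ∀ z : ℍ, Complex.exp (G z) = g (r q₀) (xq q₀) := by
    intro z
    have h1 := hgq (r q₀) ((r q₀)⁻¹ • z)
    have h2 := hconst (mem_ball_zero_iff.mpr
      (Function.Periodic.norm_qParam_lt_one hN ((r q₀)⁻¹ • z).im_pos))
    rw [h1] at h2
    simp only [hE, Function.const_apply] at h2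
    rw [← mul_smul, mul_inv_cancel, one_smul] at h2
    exact h2
  exact eq_of_exp_eq_const G hholo _ hexp

end Fermat.Agent.ES
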