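import Mathlib
import Fermat.Agent.S24.OrbDefs
import Fermat.Agent.ES.Defs

/-!
# TEAM ES, package E3a: permutation modules

For permutations `s`, `t`, `u = s * t` of a finite set `X` with `s² = 1`, `u³ = 1`, generating a
transitive group, the space of parabolic cocycle data has dimension at most
`2 |X| + 1 - orb(s) - orb(u) - orb(t)`.
-/

set_option autoImplicit false

namespace Fermat.Agent.ES

open Module LinearMap Equiv
open Fermat.Agent.S24 (orbCount)

namespace PermRep

variable {X : Type*}

/-- The operator `v ↦ v ∘ σ` on `X → ℂ`. -/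
noncomputable def rOp (σ : Perm X) : (X → ℂ) →ₗ[ℂ] (X → ℂ) := LinearMap.funLeft ℂ ℂ σ

theorem rOp_apply (σ : Perm X) (v : X → ℂ) (x : X) : rOp σ v x = v (σ x) := rfl

/-- The `σ`-invariant functions. -/
def fixSub (σ : Perm X) : Submodule ℂ (X → ℂ) where
  carrier := {v | ∀ x, v (σ x) = v x}
  zero_mem' := fun _ => rfl
  add_mem' := by
    intro a b ha hb x
    simp only [Pi.add_apply, ha x, hb x]
  smul_mem' := by
    intro c a ha x
    simp only [Pi.smul_apply, ha x]

theorem mem_fixSub (σ : Perm X) (v : X → ℂ) : v ∈ fixSub σ ↔ ∀ x, v (σ x) = v x := Iff.rfl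

/-- The functions with `a ∘ s + a = 0`. -/
def antiSub (s : Perm X) : Submodule ℂ (X → ℂ) where
  carrier := {a | ∀ x, a (s x) + a x = 0}
  zero_mem' := fun _ => by simp
  add_mem' := by
    intro a b ha hb x
    simp only [Pi.add_apply]
    linear_combination ha x + hb x
  smul_mem' := by
    intro c a ha x
    simp only [Pi.smul_apply, smul_eq_mul]
    linear_combination c * ha x

theorem mem_antiSub (s : Perm X) (v : X → ℂ) : v ∈ antiSub s ↔ ∀ x, v (s x) + v x = 0 := Iff.rfl

/-- The functions with `b ∘ u² + b ∘ u + b = 0`. -/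
def cubeSub (u : Perm X) : Submodule ℂ (X → ℂ) where
  carrier := {b | ∀ x, b (u (u x)) + b (u x) + b x = 0}
  zero_mem' := fun _ => by simp
  add_mem' := by
    intro a b ha hb x
    simp only [Pi.add_apply]
    linear_combination ha x + hb x
  smul_mem' := by
    intro c a ha x
    simp only [Pi.smul_apply, smul_eq_mul]
    linear_combination c * ha x

theorem mem_cubeSub (u : Perm X) (v : X → ℂ) :
    v ∈ cubeSub u ↔ ∀ x, v (u (u x)) + v (u x) + v x = 0 := Iff.rfl

theorem disjoint_antiSub_fixSub (s : Perm X) : Disjoint (antiSub s) (fixSub s) := by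
  rw [Submodule.disjoint_def]
  intro v hA hF
  funext x
  have h1 := hA x
  rw [hF x] at h1
  have h2 : (2 : ℂ) * v x = 0 := by linear_combination h1
  simpa using h2

theorem disjoint_cubeSub_fixSub (u : Perm X) : Disjoint (cubeSub u) (fixSub u) := by
  rw [Submodule.disjoint_def]
  intro v hB hF
  funext x
  have h1 := hB x
  rw [hF (u x), hF x] at h1
  have h2 : (3 : ℂ) * v x = 0 := by linear_combination h1
  simpa using h2

theorem orbCount_le_finrank_fixSub [Finite X] (σ : Perm X) :
    orbCount σ ≤ finrank ℂ (fixSub σ) := by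
  classical
  let Q := MulAction.orbitRel.Quotient (Subgroup.zpowers σ) X
  have : Fintype Q := Fintype.ofFinite Q
  let f : (Q → ℂ) →ₗ[ℂ] (X → ℂ) := LinearMap.funLeft ℂ ℂ (Quotient.mk'' : X → Q)
  have hf : Function.Injective f :=
    LinearMap.funLeft_injective_of_surjective ℂ ℂ _ Quotient.mk''_surjective
  have hrange : range f ≤ fixSub σ := by
    rintro _ ⟨w, rfl⟩
    intro x
    show w (Quotient.mk'' (σ x)) = w (Quotient.mk'' x)
    congr 1
    apply Quotient.sound'
    rw [MulAction.orbitRel_apply, MulAction.mem_orbit_iff]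
    exact ⟨⟨σ, Subgroup.mem_zpowers σ⟩, rfl⟩
  have h1 : finrank ℂ (range f) = finrank ℂ (Q → ℂ) := LinearMap.finrank_range_of_inj hf
  have h2 : finrank ℂ (Q → ℂ) = Fintype.card Q := Module.finrank_fintype_fun_eq_card ℂ
  have h3 : orbCount σ = Fintype.card Q := by
    unfold orbCount
    rw [Nat.card_eq_fintype_card]
  have h4 := Submodule.finrank_mono hrange
  omega

theorem finrank_fun [Finite X] : finrank ℂ (X → ℂ) = Nat.card X := by
  classical
  have : Fintype X := Fintype.ofFinite X
  rw [Module.finrank_fintype_fun_eq_card ℂ, Nat.card_eq_fintype_card]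

theorem finrank_antiSub_add [Finite X] (s : Perm X) :
    finrank ℂ (antiSub s) + orbCount s ≤ Nat.card X := by
  have h1 := Submodule.finrank_add_finrank_le_of_disjoint (disjoint_antiSub_fixSub s)
  have h2 := orbCount_le_finrank_fixSub s
  rw [finrank_fun] at h1
  omega

theorem finrank_cubeSub_add [Finite X] (u : Perm X) :
    finrank ℂ (cubeSub u) + orbCount u ≤ Nat.card X := by
  have h1 := Submodule.finrank_add_finrank_le_of_disjoint (disjoint_cubeSub_fixSub u)
  have h2 := orbCount_le_finrank_fixSub u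
  rw [finrank_fun] at h1
  omega

/-- `(a, b) ↦ b - a ∘ t`. -/
noncomputable def phiMap (s u t : Perm X) : (antiSub s × cubeSub u) →ₗ[ℂ] (X → ℂ) :=
  (cubeSub u).subtype ∘ₗ LinearMap.snd ℂ _ _ -
    rOp t ∘ₗ (antiSub s).subtype ∘ₗ LinearMap.fst ℂ _ _

theorem phiMap_apply (s u t : Perm X) (p : antiSub s × cubeSub u) (x : X) :
    phiMap s u t p x = (p.2 : X → ℂ) x - (p.1 : X → ℂ) (t x) := rfl

/-- `v ↦ ∑_{i < m} v ∘ t^i`. -/
noncomputable def avgOp (t : Perm X) (m : ℕ) : (X → ℂ) →ₗ[ℂ] (X → ℂ) :=
  ∑ i ∈ Finset.range m, rOp (t ^ i)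

theorem avgOp_apply (t : Perm X) (m : ℕ) (v : X → ℂ) (x : X) :
    avgOp t m v x = ∑ i ∈ Finset.range m, v ((t ^ i) x) := by
  simp [avgOp, LinearMap.sum_apply, Finset.sum_apply, rOp_apply]

theorem finrank_parCocycles_le_ker [Finite X] (s u t : Perm X) (m : ℕ) :
    finrank ℂ (parCocycles s u t m) ≤ finrank ℂ (ker (avgOp t m ∘ₗ phiMap s u t)) := by
  let f : parCocycles s u t m →ₗ[ℂ] ker (avgOp t m ∘ₗ phiMap s u t) :=
    { toFun := fun p => ⟨(⟨p.1.1, p.2.1⟩, ⟨p.1.2, p.2.2.1⟩), by
          rw [LinearMap.mem_ker]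
          funext x
          rw [LinearMap.comp_apply, avgOp_apply]
          exact p.2.2.2 x⟩
      map_add' := fun p q => rfl
      map_smul' := fun c p => rfl }
  have hf : Function.Injective f := by
    intro p q h
    have h1 : p.1.1 = q.1.1 := congrArg (fun z => (z.1.1 : X → ℂ)) h
    have h2 : p.1.2 = q.1.2 := congrArg (fun z => (z.1.2 : X → ℂ)) h
    exact Subtype.ext (Prod.ext h1 h2)
  exact LinearMap.finrank_le_finrank_of_injective hf

/-- Closure property: `v - v ∘ w` is in the range of `phiMap` for every `w` in the group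
generated by `s` and `t`. -/
theorem sub_rOp_mem_range (s u t : Perm X) (hs : s ^ 2 = 1) (hu : u ^ 3 = 1) (hust : u = s * t)
    (w : Perm X) (hw : w ∈ Subgroup.closure ({s, t} : Set (Perm X))) :
    ∀ v : X → ℂ, v - rOp w v ∈ range (phiMap s u t) := by
  have hmul : ∀ g h : Perm X, (∀ v, v - rOp g v ∈ range (phiMap s u t)) →
      (∀ v, v - rOp h v ∈ range (phiMap s u t)) → ∀ v, v - rOp (g * h) v ∈ range (phiMap s u t) := by
    intro g h hg hh v
    have e : v - rOp (g * h) v = (v - rOp g v) + (rOp g v - rOp h (rOp g v)) := by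
      funext x
      simp [rOp_apply, Perm.mul_apply]
    rw [e]
    exact Submodule.add_mem _ (hg v) (hh _)
  have hinv : ∀ g : Perm X, (∀ v, v - rOp g v ∈ range (phiMap s u t)) →
      ∀ v, v - rOp g⁻¹ v ∈ range (phiMap s u t) := by
    intro g hg v
    have e : v - rOp g⁻¹ v = -(rOp g⁻¹ v - rOp g (rOp g⁻¹ v)) := by
      funext x
      simp [rOp_apply]
    rw [e]
    exact Submodule.neg_mem _ (hg _)
  have hu3 : ∀ x, u (u (u x)) = x := by
    intro x
    have := congrArg (fun p : Perm X => p x) hu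
    simpa [pow_succ, Perm.mul_apply] using this
  have hs2 : ∀ x, s (s x) = x := by
    intro x
    have := congrArg (fun p : Perm X => p x) hs
    simpa [pow_succ, Perm.mul_apply] using this
  have hBmem : ∀ v : X → ℂ, v - rOp u v ∈ cubeSub u := by
    intro v x
    simp only [Pi.sub_apply, rOp_apply, hu3]
    ring
  have hAmem : ∀ v : X → ℂ, v - rOp s v ∈ antiSub s := by
    intro v x
    simp only [Pi.sub_apply, rOp_apply, hs2]
    ring
  have hu' : ∀ v, v - rOp u v ∈ range (phiMap s u t) := by
    intro v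
    refine ⟨(0, ⟨v - rOp u v, hBmem v⟩), ?_⟩
    funext x
    simp [phiMap_apply]
  have ht' : ∀ v, v - rOp t v ∈ range (phiMap s u t) := by
    intro v
    refine ⟨(⟨v - rOp s v, hAmem v⟩, ⟨v - rOp u v, hBmem v⟩), ?_⟩
    funext x
    simp only [phiMap_apply, Pi.sub_apply, rOp_apply, hust, Perm.mul_apply]
    ring
  have hs' : ∀ v, v - rOp s v ∈ range (phiMap s u t) := by
    have e : s = u * t⁻¹ := by rw [hust]; group
    intro v
    have h := hmul u t⁻¹ hu' (hinv t ht') v
    rwa [← e] at h
  induction hw using Subgroup.closure_induction with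
  | mem g hg =>
    rcases hg with rfl | rfl
    · exact hs'
    · exact ht'
  | one =>
    intro v
    have : v - rOp 1 v = 0 := by
      funext x
      simp [rOp_apply]
    rw [this]
    exact Submodule.zero_mem _
  | mul g h _ _ ih1 ih2 => exact hmul g h ih1 ih2
  | inv g _ ih => exact hinv g ih

/-- The sum functional. -/
noncomputable def sumL (X : Type*) [Fintype X] : (X → ℂ) →ₗ[ℂ] ℂ := ∑ x : X, LinearMap.proj x

theorem sumL_apply [Fintype X] (v : X → ℂ) : sumL X v = ∑ x, v x := by
  simp [sumL, LinearMap.sum_apply]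

theorem ker_sumL_le_range [Fintype X] (s u t : Perm X) (hs : s ^ 2 = 1) (hu : u ^ 3 = 1)
    (hust : u = s * t)
    (htrans : ∀ x y : X, ∃ w ∈ Subgroup.closure ({s, t} : Set (Perm X)), w x = y) :
    ker (sumL X) ≤ range (phiMap s u t) := by
  classical
  intro v hv
  rw [LinearMap.mem_ker, sumL_apply] at hv
  rcases isEmpty_or_nonempty X with hX | ⟨⟨x0⟩⟩
  · have : v = 0 := Subsingleton.elim _ _
    rw [this]
    exact Submodule.zero_mem _
  · have e : v = ∑ y, v y • ((Pi.single y (1 : ℂ) : X → ℂ) - Pi.single x0 1) := by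
      funext z
      simp only [Finset.sum_apply, Pi.smul_apply, Pi.sub_apply, smul_eq_mul, mul_sub,
        Finset.sum_sub_distrib, ← Finset.sum_mul, hv, zero_mul, sub_zero]
      simp [Pi.single_apply]
    rw [e]
    refine Submodule.sum_mem _ fun y _ => Submodule.smul_mem _ _ ?_
    obtain ⟨w, hw, rfl⟩ := htrans x0 y
    have h := sub_rOp_mem_range s u t hs hu hust w hw (Pi.single (w x0) 1)
    have e2 : rOp w (Pi.single (w x0) (1 : ℂ)) = Pi.single x0 1 := by
      funext z
      rw [rOp_apply]
      by_cases hz : z = x0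
      · subst hz
        simp
      · have : w z ≠ w x0 := fun h => hz (w.injective h)
        rw [Pi.single_eq_of_ne this, Pi.single_eq_of_ne hz]
    rwa [e2] at h

theorem fix_inf_ker_le_range [Fintype X] (s u t : Perm X) (m : ℕ) (hm : 0 < m) (hs : s ^ 2 = 1)
    (hu : u ^ 3 = 1) (hust : u = s * t)
    (htrans : ∀ x y : X, ∃ w ∈ Subgroup.closure ({s, t} : Set (Perm X)), w x = y) :
    fixSub t ⊓ ker (sumL X) ≤ range (avgOp t m ∘ₗ phiMap s u t) := by
  rintro v ⟨hF, h0⟩
  have hm' : (m : ℂ) ≠ 0 := by exact_mod_cast hm.ne'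
  have h1 : ((m : ℂ)⁻¹ • v) ∈ ker (sumL X) := Submodule.smul_mem _ _ h0
  obtain ⟨p, hp⟩ := ker_sumL_le_range s u t hs hu hust htrans h1
  refine ⟨p, ?_⟩
  rw [LinearMap.comp_apply, hp]
  funext x
  rw [avgOp_apply]
  have hpow : ∀ i : ℕ, v ((t ^ i) x) = v x := by
    intro i
    induction i with
    | zero => simp
    | succ i ih =>
      rw [pow_succ', Perm.mul_apply]
      rw [show v (t ((t ^ i) x)) = v ((t ^ i) x) from hF _, ih]
  simp only [Pi.smul_apply, smul_eq_mul, hpow, Finset.sum_const, Finset.card_range, nsmul_eq_mul]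
  field_simp

theorem orbCount_le_finrank_range [Finite X] (s u t : Perm X) (m : ℕ) (hm : 0 < m)
    (hs : s ^ 2 = 1) (hu : u ^ 3 = 1) (hust : u = s * t)
    (htrans : ∀ x y : X, ∃ w ∈ Subgroup.closure ({s, t} : Set (Perm X)), w x = y) :
    orbCount t ≤ finrank ℂ (range (avgOp t m ∘ₗ phiMap s u t)) + 1 := by
  classical
  have : Fintype X := Fintype.ofFinite X
  have h1 := Submodule.finrank_mono (fix_inf_ker_le_range s u t m hm hs hu hust htrans)
  have h2 := orbCount_le_finrank_fixSub t
  have h3 := Submodule.finrank_sup_add_finrank_inf_eq (fixSub t) (ker (sumL X))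
  have h4 : finrank ℂ ↥(fixSub t ⊔ ker (sumL X)) ≤ finrank ℂ (X → ℂ) := Submodule.finrank_le _
  have h5 := LinearMap.finrank_range_add_finrank_ker (sumL X)
  have h6 : finrank ℂ (range (sumL X)) ≤ 1 := by
    have := Submodule.finrank_le (range (sumL X))
    simpa using this
  omega

end PermRep

open PermRep in
/-- **E3a.** Dimension bound for the parabolic cocycle data of a transitive triple of
permutations. -/
theorem finrank_parCocycles_le {X : Type*} [Finite X] (s u t : Equiv.Perm X) (m : ℕ) (hm : 0 < m)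
    (hs : s ^ 2 = 1) (hu : u ^ 3 = 1) (hust : u = s * t) (htm : t ^ m = 1)
    (htrans : ∀ x y : X, ∃ w ∈ Subgroup.closure ({s, t} : Set (Equiv.Perm X)), w x = y) :
    finrank ℂ (parCocycles s u t m) + orbCount s + orbCount u + orbCount t
      ≤ 2 * Nat.card X + 1 := by
  have _ := htm
  have h1 := finrank_parCocycles_le_ker s u t m
  have h2 := LinearMap.finrank_range_add_finrank_ker (avgOp t m ∘ₗ phiMap s u t)
  have h3 : finrank ℂ (antiSub s × cubeSub u) = finrank ℂ (antiSub s) + finrank ℂ (cubeSub u) :=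
    Module.finrank_prod
  have h4 := finrank_antiSub_add s
  have h5 := finrank_cubeSub_add u
  have h6 := orbCount_le_finrank_range s u t m hm hs hu hust htrans
  omega

end Fermat.Agent.ES
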