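import Mathlib
import Fermat.Agent.S24.GenusNumerics
import Fermat.Agent.S24.CosetsBasic
import Fermat.Agent.ES.PermRep

/-!
# TEAM ES, package E3a at `X = SL(2, ℤ) ⧸ Γ₀(N)`

The dimension bound `finrank_parCocycles_le` for the permutations induced by `S`, `S * T`, `T`
on the cosets of `Γ₀(N)`.
-/

set_option autoImplicit false

namespace Fermat.Agent.ES

open Module Equiv CongruenceSubgroup
open Fermat.Agent.S24 (orbCount X0 cosetPerm cosetPerm_apply cosetPerm_mul cosetPerm_one
  cosetPerm_mk)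
open scoped MatrixGroups

namespace PermRepX0

theorem cosetPerm_pow (N : ℕ) (g : SL(2, ℤ)) (k : ℕ) :
    cosetPerm N g ^ k = cosetPerm N (g ^ k) := by
  induction k with
  | zero => rw [pow_zero, pow_zero, cosetPerm_one]
  | succ k ih => rw [pow_succ, pow_succ, cosetPerm_mul, ih]

theorem cosetPerm_S_sq (N : ℕ) : cosetPerm N ModularGroup.S ^ 2 = 1 := by
  rw [cosetPerm_pow]
  ext x
  rw [cosetPerm_apply, Fermat.Agent.S24.Cosets.S_pow_two_smul]
  rfl

theorem cosetPerm_ST_cube (N : ℕ) : cosetPerm N (ModularGroup.S * ModularGroup.T) ^ 3 = 1 := by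
  rw [cosetPerm_pow]
  ext x
  rw [cosetPerm_apply, Fermat.Agent.S24.Cosets.ST_pow_three_smul]
  rfl

theorem T_pow_apply (k : ℕ) :
    ((ModularGroup.T ^ k : SL(2, ℤ)) : Matrix (Fin 2) (Fin 2) ℤ) = !![1, (k : ℤ); 0, 1] := by
  have h := ModularGroup.coe_T_zpow (k : ℤ)
  rwa [zpow_natCast] at h

theorem cosetPerm_T_pow (N : ℕ) : cosetPerm N ModularGroup.T ^ N = 1 := by
  rw [cosetPerm_pow]
  ext x
  induction x using QuotientGroup.induction_on with
  | H g =>
    rw [cosetPerm_mk]
    show ((ModularGroup.T ^ N * g : SL(2, ℤ)) : X0 N) = (g : X0 N)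
    rw [Fermat.Agent.S24.Cosets.mk_eq_mk_iff, Fermat.Agent.S24.Cosets.mul_apply_zero_zero,
      Fermat.Agent.S24.Cosets.mul_apply_one_zero]
    have h := T_pow_apply N
    have h00 : (ModularGroup.T ^ N : SL(2, ℤ)) 0 0 = 1 := by
      have := congrFun (congrFun h 0) 0; simpa using this
    have h01 : (ModularGroup.T ^ N : SL(2, ℤ)) 0 1 = (N : ℤ) := by
      have := congrFun (congrFun h 0) 1; simpa using this
    have h10 : (ModularGroup.T ^ N : SL(2, ℤ)) 1 0 = 0 := by
      have := congrFun (congrFun h 1) 0; simpa using this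
    have h11 : (ModularGroup.T ^ N : SL(2, ℤ)) 1 1 = 1 := by
      have := congrFun (congrFun h 1) 1; simpa using this
    rw [h00, h01, h10, h11]
    exact ⟨g 1 0 * g 1 0, by ring⟩

theorem transitive_X0 (N : ℕ) (x y : X0 N) :
    ∃ w ∈ Subgroup.closure
      ({cosetPerm N ModularGroup.S, cosetPerm N ModularGroup.T} : Set (Perm (X0 N))), w x = y := by
  induction x using QuotientGroup.induction_on with
  | H g₁ =>
    induction y using QuotientGroup.induction_on with
    | H g₂ =>
      refine ⟨cosetPerm N (g₂ * g₁⁻¹),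
        Fermat.Agent.S24.GenusNumerics.cosetPerm_mem_closure N _, ?_⟩
      rw [cosetPerm_mk, inv_mul_cancel_right]

end PermRepX0

open PermRepX0 in
/-- **E3a at `X₀(N)`.** -/
theorem finrank_parCocycles_X0_le (N : ℕ) [NeZero N] :
    finrank ℂ (parCocycles (cosetPerm N ModularGroup.S)
        (cosetPerm N (ModularGroup.S * ModularGroup.T)) (cosetPerm N ModularGroup.T) N)
      + orbCount (cosetPerm N ModularGroup.S)
      + orbCount (cosetPerm N (ModularGroup.S * ModularGroup.T))
      + orbCount (cosetPerm N ModularGroup.T) ≤ 2 * Nat.card (X0 N) + 1 := by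
  have hfin : Finite (X0 N) := Subgroup.finite_quotient_of_finiteIndex
  exact finrank_parCocycles_le _ _ _ N (Nat.pos_of_ne_zero (NeZero.ne N)) (cosetPerm_S_sq N)
    (cosetPerm_ST_cube N) (cosetPerm_mul N _ _) (cosetPerm_T_pow N) (transitive_X0 N)

end Fermat.Agent.ES
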