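import Fermat.Agent.RR.RRFinal
import Fermat.Agent.RR.DictC
import Fermat.Agent.ES.Final
import Fermat.Agent.ES.Injective

/-!
# S20 from the Eichler–Shimura upper bound and half (B) of the modular dictionary

`dim S₂(Γ₀(N)) ≤ g` comes from the injectivity of the period pairing (ES); `g = dim L(div dj)`
is RR* + the S24 counts over `ℂ`; half (B) of the dictionary (every element of `L(div dj)`
comes from a cusp form) gives `dim L(div dj) ≤ dim S₂(Γ₀(N))`.
-/

set_option autoImplicit false

open IntermediateField AlgebraicCurve ModularCurve KaehlerDifferential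
open scoped MatrixGroups

namespace Fermat.Agent.ES

open Fermat.Agent.S24 Fermat.Agent.RR

/-- **S20 via ES**: the dimension formula for `S₂(Γ₀(N))` from half (B) of the modular
dictionary alone. -/
theorem finrank_cuspForm_eq_of_B (N : ℕ) [NeZero N]
    (hB : ∀ (W : Divisor ℂ (FK ℂ N)),
      (∀ v : Place ℂ (FK ℂ N), W v = v.ordDifferential (D ℂ (FK ℂ N) (xgen ℂ N))) →
      ∀ y : FK ℂ N, y ∈ riemannRochSpace W →
        ∃ f : CuspForm (CongruenceSubgroup.Gamma0 N) 2, IsDict N y ⇑f) :
    (Module.finrank ℂ (CuspForm (CongruenceSubgroup.Gamma0 N) 2) : ℚ) = genusFormula N := by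
  obtain ⟨hD, W, hW⟩ := exists_divisor_D_xgen ℂ (RingHom.id ℂ) N
  obtain ⟨hfin, g, hg, hle⟩ := finrank_cuspForm_le_of_injective N (periodHomPair_injective N)
  have h1 := finrank_riemannRochSpace_FK ℂ (RingHom.id ℂ) N _ hD W hW
  have h2 := (finrank_le_of_B N (riemannRochSpace W) (fun y hy => hB W hW y hy)).2
  have h3 : Module.finrank ℂ (riemannRochSpace W) = g := by
    have : (Module.finrank ℂ (riemannRochSpace W) : ℚ) = (g : ℚ) := by rw [h1, hg]
    exact_mod_cast this
  have h4 : Module.finrank ℂ (CuspForm (CongruenceSubgroup.Gamma0 N) 2) = g := by omega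
  rw [h4, hg]

end Fermat.Agent.ES
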